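import Fermat.Agent.F3.Interfaces
import Fermat.Prelude.Def_CuspForm_HeckeGaloisRepDatum
import Fermat.Prelude.Def_GaloisRep_ComplexConjugation

set_option autoImplicit false

/-!
# S30 p-adic core (blueprint-F3, work package A2): INTERFACES  (owner helper68)

Definitions only (no theorems with `sorry`).  The pieces of the S30 core meet here:

* `CycloCharData p 𝒪`   : the `p`-adic cyclotomic character with values in `𝒪ˣ` and its four
                          properties (provider: Lib/Cyclo, helper29).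
* `FrobLattice p N S 𝒪 a`: a nonzero finite free `𝒪`-module with adically continuous `G_ℚ`-action,
                          unramified outside `N p`, on which every Frobenius at `ℓ ∉ S` is killed by
                          `X² - a_ℓ X + ℓ`  (provider: S30/TateLattice, helper11).
* `EigenclassPadic N`   : the `p`-adic eigen-class (provider: analytic side A3/A5).
* `heckeEigenvalue χ`   : `ℓ ↦ χ(T_ℓ)` (and `0` if `ℓ` is not a prime outside `S` and `N`).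

Consumer: `S30/Assembly.lean` (helper68):
`FrobDensityLite → CycloCharData p 𝒪 → FrobLattice p N S 𝒪 (heckeEigenvalue χ) → (S30 conclusion)`.
-/

noncomputable section

namespace Fermat.Agent.S30

open ModularCurve AlgebraicCurve IsLocalRing
open scoped TensorProduct

/-- The absolute Galois group of `ℚ` (same as `F3.GQ`). -/
abbrev GQ : Type := AlgebraicClosure ℚ ≃ₐ[ℚ] AlgebraicClosure ℚ

/-! ### the cyclotomic character with values in `𝒪` -/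

/-- The `p`-adic cyclotomic character with values in `𝒪ˣ`, with the properties used by the
S30 core. -/
structure CycloCharData (p : ℕ) (𝒪 : Type) [CommRing 𝒪] [IsLocalRing 𝒪] where
  /-- the character -/
  ε : GQ →* 𝒪ˣ
  /-- value `ℓ` at a Frobenius element at `ℓ ≠ p` -/
  frob : ∀ ℓ : ℕ, ℓ.Prime → ℓ ≠ p →
    ∀ A : ValuationSubring (AlgebraicClosure ℚ), A.LiesOverPrime ℓ →
      ∀ σ : GQ, A.IsFrobeniusAt σ ℓ → ((ε σ : 𝒪ˣ) : 𝒪) = (ℓ : 𝒪)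
  /-- trivial on inertia at `ℓ ≠ p` -/
  inertia : ∀ ℓ : ℕ, ℓ.Prime → ℓ ≠ p →
    ∀ A : ValuationSubring (AlgebraicClosure ℚ), A.LiesOverPrime ℓ →
      ∀ σ ∈ A.inertiaSubgroupIn ℚ, ε σ = 1
  /-- adic continuity: `ε ≡ 1` modulo `𝔪 ^ n` on an open subgroup -/
  level : ∀ n : ℕ, ∃ L : IntermediateField ℚ (AlgebraicClosure ℚ), FiniteDimensional ℚ L ∧
    ∀ σ : GQ, (∀ x ∈ L, σ x = x) → ((ε σ : 𝒪ˣ) : 𝒪) - 1 ∈ maximalIdeal 𝒪 ^ n
  /-- value `-1` at complex conjugation -/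
  conj : ε complexConjugation = -1

/-! ### the lattice -/

/-- A nonzero finite free `𝒪`-module with an adically continuous action of `G_ℚ`, unramified at
every prime `q ∤ N p`, such that every Frobenius element at a prime `ℓ ∉ S` is killed by
`X² - a ℓ X + ℓ`. -/
structure FrobLattice (p N : ℕ) (S : Finset ℕ) (𝒪 : Type) [CommRing 𝒪] [IsLocalRing 𝒪]
    (a : ℕ → 𝒪) : Type 1 where
  /-- the module -/
  Λ : Type
  [instAddCommGroup : AddCommGroup Λ]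
  [instModule : Module 𝒪 Λ]
  [instFree : Module.Free 𝒪 Λ]
  [instFinite : Module.Finite 𝒪 Λ]
  [instNontrivial : Nontrivial Λ]
  /-- the action -/
  ρ : GQ →* Module.End 𝒪 Λ
  cont : GaloisActionIsAdicContinuous 𝒪 ρ
  unram : ∀ q : ℕ, q.Prime → ¬ q ∣ N → q ≠ p →
    ∀ P : ValuationSubring (AlgebraicClosure ℚ), P.LiesOverPrime q →
      ∀ σ ∈ P.inertiaSubgroupIn ℚ, ρ σ = 1
  frob : ∀ ℓ : ℕ, ℓ.Prime → ℓ ∉ S →
    ∀ A : ValuationSubring (AlgebraicClosure ℚ), A.LiesOverPrime ℓ →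
      ∀ σ : GQ, A.IsFrobeniusAt σ ℓ →
        ρ σ * ρ σ - a ℓ • ρ σ + (ℓ : 𝒪) • (1 : Module.End 𝒪 Λ) = 0

attribute [instance] FrobLattice.instAddCommGroup FrobLattice.instModule FrobLattice.instFree
  FrobLattice.instFinite FrobLattice.instNontrivial

/-! ### Hecke eigenvalues of a point `χ` of the Hecke algebra -/

open Classical in
/-- `ℓ ↦ χ(T_ℓ)` for primes `ℓ ∉ S`, `ℓ ∤ N`; `0` otherwise. -/
def heckeEigenvalue {N : ℕ} [NeZero N] {S : Finset ℕ} {𝒪 : Type} [CommRing 𝒪]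
    (χ : CuspForm.heckeAlgebra N 2 (↑S : Set ℕ) →+* 𝒪) (ℓ : ℕ) : 𝒪 :=
  if h : ℓ.Prime ∧ ¬ ℓ ∣ N ∧ ℓ ∉ (↑S : Set ℕ) then χ (CuspForm.heckeAlgebra.T h.1 h.2.1 h.2.2)
  else 0

theorem heckeEigenvalue_eq {N : ℕ} [NeZero N] {S : Finset ℕ} {𝒪 : Type} [CommRing 𝒪]
    (χ : CuspForm.heckeAlgebra N 2 (↑S : Set ℕ) →+* 𝒪) {ℓ : ℕ} (hℓ : ℓ.Prime) (hℓN : ¬ ℓ ∣ N)
    (hℓS : ℓ ∉ (↑S : Set ℕ)) :
    heckeEigenvalue χ ℓ = χ (CuspForm.heckeAlgebra.T hℓ hℓN hℓS) := by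
  unfold heckeEigenvalue
  rw [dif_pos ⟨hℓ, hℓN, hℓS⟩]

/-! ### the `p`-adic eigen-class (analytic side) -/

/-- Multiplication by `p` as a map `J[p^(n+1)] → J[p^n]`. -/
def mulPTors (N p n : ℕ) [NeZero N] : F3.Jtors N (p ^ (n + 1)) →ₗ[ℤ] F3.Jtors N (p ^ n) :=
  LinearMap.codRestrict (F3.Jtors N (p ^ n))
    (((p : ℤ) • (LinearMap.id : JZero N →ₗ[ℤ] JZero N)).comp (F3.Jtors N (p ^ (n + 1))).subtype)
    (by
      intro x
      have hx := x.2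
      rw [Submodule.mem_torsionBy_iff] at hx ⊢
      simp only [LinearMap.coe_comp, Submodule.coe_subtype, Function.comp_apply,
        LinearMap.smul_apply, LinearMap.id_coe, id_eq]
      rw [smul_smul]
      have : ((p ^ n : ℕ) : ℤ) * (p : ℤ) = ((p ^ (n + 1) : ℕ) : ℤ) := by
        push_cast; ring
      rw [this]
      exact hx)

theorem mulPTors_coe (N p n : ℕ) [NeZero N] (x : F3.Jtors N (p ^ (n + 1))) :
    ((mulPTors N p n x : F3.Jtors N (p ^ n)) : JZero N) = (p : ℤ) • (x : JZero N) := rfl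

/-- (IF-2, `p`-adic) For `p, S, 𝒪, χ` as in S30 there is a compatible sequence
`x n ∈ 𝒪 ⊗ J₀(N)(ℚ̄)[p ^ n]`, not identically zero, with `p · x (n + 1) = x n` and
`T_ℓ (x n) = χ(T_ℓ) · x n` for all primes `ℓ ∉ S`. -/
def EigenclassPadic (N : ℕ) [NeZero N] : Prop :=
  ∀ (p : ℕ) [Fact p.Prime] (S : Finset ℕ), p ∈ S → (∀ q : ℕ, q.Prime → q ∣ N → q ∈ S) →
    ∀ (𝒪 : Type) [CommRing 𝒪] [IsDomain 𝒪] [IsDiscreteValuationRing 𝒪]
      [IsAdicComplete (maximalIdeal 𝒪) 𝒪] [Finite (ResidueField 𝒪)] [CharZero 𝒪],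
      (p : 𝒪) ∈ maximalIdeal 𝒪 →
      ∀ χ : CuspForm.heckeAlgebra N 2 (↑S : Set ℕ) →+* 𝒪,
        ∃ x : (n : ℕ) → 𝒪 ⊗[ℤ] F3.Jtors N (p ^ n),
          (∃ n, x n ≠ 0) ∧
          (∀ n, (mulPTors N p n).baseChange 𝒪 (x (n + 1)) = x n) ∧
          ∀ (n ℓ : ℕ) (hℓ : ℓ.Prime) (hℓN : ¬ ℓ ∣ N) (hℓS : ℓ ∉ (↑S : Set ℕ)),
            (F3.heckeTors N (p ^ n) ⟨ℓ, hℓ⟩).baseChange 𝒪 (x n) =
              χ (CuspForm.heckeAlgebra.T hℓ hℓN hℓS) • x n

/-! ### the conclusion of S30 as a `Prop` -/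

open Polynomial in
/-- The frozen S30 statement at level `N`. -/
def S30At (N : ℕ) [NeZero N] : Prop :=
  ∀ (p : ℕ) [Fact p.Prime] (S : Finset ℕ)
    (_hpS : p ∈ S) (_hNS : ∀ q : ℕ, q.Prime → q ∣ N → q ∈ S)
    (𝒪' : Type) [CommRing 𝒪'] [IsDomain 𝒪'] [IsDiscreteValuationRing 𝒪']
    [IsAdicComplete (IsLocalRing.maximalIdeal 𝒪') 𝒪'] [Finite (IsLocalRing.ResidueField 𝒪')]
    [CharZero 𝒪'] (_hp𝒪' : (p : 𝒪') ∈ IsLocalRing.maximalIdeal 𝒪')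
    (χ : CuspForm.heckeAlgebra N 2 (↑S : Set ℕ) →+* 𝒪'),
    ∃ (𝒪'' : Type) (_ : CommRing 𝒪'') (_ : IsDomain 𝒪'') (_ : IsDiscreteValuationRing 𝒪'')
      (_ : IsAdicComplete (IsLocalRing.maximalIdeal 𝒪'') 𝒪'')
      (_ : Finite (IsLocalRing.ResidueField 𝒪'')) (_ : CharZero 𝒪'')
      (_ : Algebra 𝒪' 𝒪'') (_ : Module.Finite 𝒪' 𝒪'') (_ : IsLocalHom (algebraMap 𝒪' 𝒪'')),
    Function.Injective (algebraMap 𝒪' 𝒪'') ∧
    ∃ ρ : GaloisRepAdic 𝒪'',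
      (∀ (ℓ : ℕ) (hℓ : ℓ.Prime) (hℓN : ¬ ℓ ∣ N) (hℓS : ℓ ∉ (↑S : Set ℕ)),
        ∀ A : ValuationSubring (AlgebraicClosure ℚ), A.LiesOverPrime ℓ →
          ∀ σ : AlgebraicClosure ℚ ≃ₐ[ℚ] AlgebraicClosure ℚ, A.IsFrobeniusAt σ ℓ →
            LinearMap.charpoly (ρ.ρ σ) =
              X ^ 2 - C (algebraMap 𝒪' 𝒪'' (χ (CuspForm.heckeAlgebra.T hℓ hℓN hℓS))) * X
                + C ((ℓ : 𝒪''))) ∧
      (∀ q : ℕ, q.Prime → ¬ q ∣ N → q ≠ p → ρ.IsUnramifiedAt q)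

end Fermat.Agent.S30
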