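import Mathlib

set_option autoImplicit false
set_option linter.unusedSectionVars false
set_option linter.style.haveILetI false

/-!
# S30 p-adic core, W1 (abstract part 2): torsion of `O ⊗[ℤ] J` for a flat `ℤ`-algebra `O`

`J` an abelian group, `O` a commutative ring which is flat over `ℤ`.  Then the `n`-torsion of
`O ⊗[ℤ] J` is the image of `O ⊗[ℤ] J[n]`.  Consequently every `ℤ`-linear identity which holds
on `J[n]` holds on `(O ⊗ J)[n]` after base change.
-/

noncomputable section

namespace Fermat.Agent.S30Tate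

open scoped TensorProduct

section Torsion

variable (O : Type*) [CommRing O] {J : Type*} [AddCommGroup J]

theorem natCast_smul_tensor (n : ℕ) (m : O ⊗[ℤ] J) : (n : O) • m = (n : ℤ) • m := by
  rw [Nat.cast_smul_eq_nsmul, natCast_zsmul]

variable [Module.Flat ℤ O]

/-- The `n`-torsion of `O ⊗ J` is the image of `O ⊗ J[n]`. -/
theorem exists_torsion_lift (n : ℕ) (m : O ⊗[ℤ] J) (hm : (n : O) • m = 0) :
    ∃ z : O ⊗[ℤ] Submodule.torsionBy ℤ J (n : ℤ),
      (Submodule.torsionBy ℤ J (n : ℤ)).subtype.baseChange O z = m := by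
  have hex : Function.Exact (Submodule.torsionBy ℤ J (n : ℤ)).subtype
      ((n : ℤ) • (LinearMap.id : J →ₗ[ℤ] J)) := by
    intro y
    simp only [LinearMap.smul_apply, LinearMap.id_coe, id_eq, Submodule.coe_subtype,
      Set.mem_range, Subtype.exists, exists_prop, exists_eq_right, Submodule.mem_torsionBy_iff]
  have h1 := Module.Flat.lTensor_exact O hex
  have h2 : (((n : ℤ) • (LinearMap.id : J →ₗ[ℤ] J)).lTensor O) m = 0 := by
    rw [LinearMap.lTensor_smul, LinearMap.lTensor_id, LinearMap.smul_apply, LinearMap.id_apply,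
      ← natCast_smul_tensor, hm]
  obtain ⟨z, hz⟩ := (h1 m).mp h2
  exact ⟨z, hz⟩

/-- A `ℤ`-linear map vanishing on `J[n]` vanishes on `(O ⊗ J)[n]` after base change. -/
theorem baseChange_eq_zero_of_torsion {J' : Type*} [AddCommGroup J'] (n : ℕ) (f : J →ₗ[ℤ] J')
    (hf : ∀ x : J, n • x = 0 → f x = 0) (m : O ⊗[ℤ] J) (hm : (n : O) • m = 0) :
    f.baseChange O m = 0 := by
  obtain ⟨z, rfl⟩ := exists_torsion_lift O n m hm
  have h0 : f ∘ₗ (Submodule.torsionBy ℤ J (n : ℤ)).subtype = 0 := by
    apply LinearMap.ext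
    intro y
    have hy := y.2
    rw [Submodule.mem_torsionBy_iff, natCast_zsmul] at hy
    exact hf _ hy
  rw [← LinearMap.comp_apply, ← LinearMap.baseChange_comp, h0, LinearMap.baseChange_zero,
    LinearMap.zero_apply]

/-- The torsion of `O ⊗ J` is finitely generated if `J[n]` is finite. -/
theorem torsionBy_tensor_fg [IsNoetherianRing O] (n : ℕ) (hfin : {x : J | n • x = 0}.Finite) :
    (Submodule.torsionBy O (O ⊗[ℤ] J) (n : O)).FG := by
  haveI : Finite (Submodule.torsionBy ℤ J (n : ℤ)) := by
    have : (Submodule.torsionBy ℤ J (n : ℤ) : Set J) = {x : J | n • x = 0} := by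
      ext x
      simp [Submodule.mem_torsionBy_iff]
    exact (this ▸ hfin : (Submodule.torsionBy ℤ J (n : ℤ) : Set J).Finite)
  haveI : Module.Finite ℤ (Submodule.torsionBy ℤ J (n : ℤ)) := Module.Finite.of_finite
  have h1 : (LinearMap.range ((Submodule.torsionBy ℤ J (n : ℤ)).subtype.baseChange O)).FG := by
    rw [← Submodule.map_top]
    exact Module.Finite.fg_top.map _
  refine h1.of_le ?_
  intro m hm
  rw [Submodule.mem_torsionBy_iff] at hm
  obtain ⟨z, hz⟩ := exists_torsion_lift O n m hm
  exact ⟨z, hz⟩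

/-- Injectivity of `O ⊗ J[n] → O ⊗ J`. -/
theorem torsion_baseChange_injective (n : ℕ) :
    Function.Injective ((Submodule.torsionBy ℤ J (n : ℤ)).subtype.baseChange O) := by
  have := Module.Flat.lTensor_preserves_injective_linearMap (M := O)
    (Submodule.torsionBy ℤ J (n : ℤ)).subtype (Submodule.injective_subtype _)
  rwa [← LinearMap.baseChange_eq_ltensor] at this

end Torsion

section Galois

variable (O : Type*) [CommRing O] (J : Type*) [AddCommGroup J]
  {G : Type*} [Group G] [DistribMulAction G J]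

/-- The action of `σ` on `J` as a `ℤ`-linear map. -/
def galLinZ (σ : G) : J →ₗ[ℤ] J := (DistribSMul.toAddMonoidHom J σ).toIntLinearMap

@[simp] theorem galLinZ_apply (σ : G) (x : J) : galLinZ J σ x = σ • x := rfl

/-- The action of `G` on `O ⊗ J`. -/
def galBC : G →* Module.End O (O ⊗[ℤ] J) where
  toFun σ := (galLinZ J σ).baseChange O
  map_one' := by
    have : galLinZ J (1 : G) = LinearMap.id := by
      apply LinearMap.ext; intro x; simp
    rw [this, LinearMap.baseChange_id]; rfl
  map_mul' σ τ := by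
    have : galLinZ J (σ * τ) = galLinZ J σ ∘ₗ galLinZ J τ := by
      apply LinearMap.ext; intro x; simp [mul_smul]
    rw [this, LinearMap.baseChange_comp]; rfl

theorem galBC_apply (σ : G) (m : O ⊗[ℤ] J) : galBC O J σ m = (galLinZ J σ).baseChange O m := rfl

variable {J}

theorem galBC_comm (T : Module.End ℤ J) (hT : ∀ (σ : G) (x : J), T (σ • x) = σ • T x)
    (σ : G) (m : O ⊗[ℤ] J) :
    T.baseChange O (galBC O J σ m) = galBC O J σ (T.baseChange O m) := by
  rw [galBC_apply, galBC_apply, ← LinearMap.comp_apply, ← LinearMap.comp_apply,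
    ← LinearMap.baseChange_comp, ← LinearMap.baseChange_comp]
  congr 2
  apply LinearMap.ext
  intro x
  simp [hT]

variable [Module.Flat ℤ O]

theorem galBC_fix (n : ℕ) (σ : G) (hfix : ∀ x : J, n • x = 0 → σ • x = x)
    (m : O ⊗[ℤ] J) (hm : (n : O) • m = 0) : galBC O J σ m = m := by
  have := baseChange_eq_zero_of_torsion O n (galLinZ J σ - LinearMap.id)
    (fun x hx => by simp [hfix x hx]) m hm
  rw [LinearMap.baseChange_sub, LinearMap.baseChange_id, LinearMap.sub_apply,
    LinearMap.id_apply, sub_eq_zero] at this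
  exact this

theorem galBC_quadratic (n : ℕ) (σ : G) (T : Module.End ℤ J) (ℓ : ℕ)
    (hq : ∀ x : J, n • x = 0 → σ • σ • x - T (σ • x) + ℓ • x = 0)
    (m : O ⊗[ℤ] J) (hm : (n : O) • m = 0) :
    galBC O J σ (galBC O J σ m) - T.baseChange O (galBC O J σ m) + (ℓ : O) • m = 0 := by
  have := baseChange_eq_zero_of_torsion O n
    (galLinZ J σ ∘ₗ galLinZ J σ - T ∘ₗ galLinZ J σ + (ℓ : ℤ) • LinearMap.id)
    (fun x hx => by simpa using hq x hx) m hm
  rw [LinearMap.baseChange_add, LinearMap.baseChange_sub, LinearMap.baseChange_comp,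
    LinearMap.baseChange_comp, LinearMap.baseChange_smul, LinearMap.baseChange_id] at this
  simp only [LinearMap.add_apply, LinearMap.sub_apply, LinearMap.comp_apply,
    LinearMap.smul_apply, LinearMap.id_apply] at this
  rw [natCast_smul_tensor]
  exact this

end Galois

end Fermat.Agent.S30Tate
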