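import Fermat.Agent.S30.TateModule
import Fermat.Agent.S30.TateBaseChange

set_option autoImplicit false
set_option linter.unusedSectionVars false
set_option linter.style.haveILetI false

/-!
# S30 p-adic core, W1 (abstract part 3): the eigen-lattice of `O ⊗ J`

`J` an abelian group with an action of a group `G` and commuting endomorphisms `T i`
(`i : ι`) which commute with `G`; `O` a complete DVR of characteristic zero, `p` a prime in the
maximal ideal of `O`, `c : ι → O` a system of eigenvalues.  If `J[p]` is finite and there is a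
compatible nonzero sequence of eigen-classes `x n ∈ O ⊗ J[p ^ n]`, then the `c`-eigenpart of the
`p`-adic Tate module of `O ⊗ J` is a nonzero finite free `O`-module with an action of `G`, and
every identity which holds on all `J[p ^ n]` holds on it.
-/

noncomputable section

namespace Fermat.Agent.S30Tate

open IsLocalRing
open scoped TensorProduct

section Bridge

variable {O : Type*} [CommRing O] [Module.Flat ℤ O] {J : Type*} [AddCommGroup J]
  {ι : Type*} (T : ι → Module.End ℤ J) (c : ι → O) {p : ℕ}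

/-- The bridge: a compatible sequence of eigen-classes in `O ⊗ J[p ^ n]` gives a nonzero
element of the eigen-lattice. -/
theorem exists_mem_eigenTate_ne_zero
    (μ : ∀ n, Submodule.torsionBy ℤ J ((p ^ (n + 1) : ℕ) : ℤ) →ₗ[ℤ]
      Submodule.torsionBy ℤ J ((p ^ n : ℕ) : ℤ))
    (hμ : ∀ n (y : Submodule.torsionBy ℤ J ((p ^ (n + 1) : ℕ) : ℤ)),
      ((μ n y : Submodule.torsionBy ℤ J ((p ^ n : ℕ) : ℤ)) : J) = (p : ℤ) • (y : J))
    (Tt : ∀ (_ : ι) (n : ℕ), Submodule.torsionBy ℤ J ((p ^ n : ℕ) : ℤ) →ₗ[ℤ]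
      Submodule.torsionBy ℤ J ((p ^ n : ℕ) : ℤ))
    (hTt : ∀ i n (y : Submodule.torsionBy ℤ J ((p ^ n : ℕ) : ℤ)),
      ((Tt i n y : Submodule.torsionBy ℤ J ((p ^ n : ℕ) : ℤ)) : J) = T i (y : J))
    (x : (n : ℕ) → O ⊗[ℤ] Submodule.torsionBy ℤ J ((p ^ n : ℕ) : ℤ))
    (hx0 : ∃ n, x n ≠ 0)
    (hcompat : ∀ n, (μ n).baseChange O (x (n + 1)) = x n)
    (heig : ∀ i n, (Tt i n).baseChange O (x n) = c i • x n) :
    ∃ X : ℕ → O ⊗[ℤ] J,
      X ∈ eigenTate (p : O) (fun i => (T i).baseChange O) c ∧ X ≠ 0 := by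
  refine ⟨fun n => (Submodule.torsionBy ℤ J ((p ^ n : ℕ) : ℤ)).subtype.baseChange O (x n),
    ⟨⟨?_, ?_⟩, ?_⟩, ?_⟩
  · -- X 0 = 0
    have h0 : (Submodule.torsionBy ℤ J ((p ^ 0 : ℕ) : ℤ)).subtype = 0 := by
      apply LinearMap.ext
      rintro ⟨y, hy⟩
      rw [Submodule.mem_torsionBy_iff, pow_zero, Nat.cast_one, one_smul] at hy
      rw [Submodule.subtype_apply, LinearMap.zero_apply]
      exact hy
    show (Submodule.torsionBy ℤ J ((p ^ 0 : ℕ) : ℤ)).subtype.baseChange O (x 0) = 0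
    rw [h0, LinearMap.baseChange_zero, LinearMap.zero_apply]
  · -- p • X (n+1) = X n
    intro n
    show (p : O) • (Submodule.torsionBy ℤ J ((p ^ (n + 1) : ℕ) : ℤ)).subtype.baseChange O
        (x (n + 1))
      = (Submodule.torsionBy ℤ J ((p ^ n : ℕ) : ℤ)).subtype.baseChange O (x n)
    have h1 : (Submodule.torsionBy ℤ J ((p ^ n : ℕ) : ℤ)).subtype ∘ₗ μ n =
        (p : ℤ) • (Submodule.torsionBy ℤ J ((p ^ (n + 1) : ℕ) : ℤ)).subtype := by
      apply LinearMap.ext
      intro y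
      simp only [LinearMap.comp_apply, Submodule.subtype_apply, LinearMap.smul_apply]
      exact hμ n y
    rw [← hcompat n, ← LinearMap.comp_apply, ← LinearMap.baseChange_comp, h1,
      LinearMap.baseChange_smul, LinearMap.smul_apply, natCast_smul_tensor]
  · -- eigen
    intro i n
    show (T i).baseChange O
        ((Submodule.torsionBy ℤ J ((p ^ n : ℕ) : ℤ)).subtype.baseChange O (x n))
      = c i • (Submodule.torsionBy ℤ J ((p ^ n : ℕ) : ℤ)).subtype.baseChange O (x n)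
    have h1 : T i ∘ₗ (Submodule.torsionBy ℤ J ((p ^ n : ℕ) : ℤ)).subtype =
        (Submodule.torsionBy ℤ J ((p ^ n : ℕ) : ℤ)).subtype ∘ₗ Tt i n := by
      apply LinearMap.ext
      intro y
      simp only [LinearMap.comp_apply, Submodule.subtype_apply]
      exact (hTt i n y).symm
    rw [← LinearMap.comp_apply, ← LinearMap.baseChange_comp, h1, LinearMap.baseChange_comp,
      LinearMap.comp_apply, heig i n, map_smul]
  · -- nonzero
    obtain ⟨n, hn⟩ := hx0
    intro hX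
    apply hn
    apply torsion_baseChange_injective O (J := J) (p ^ n)
    rw [map_zero]
    exact congrFun hX n

end Bridge

/-- **W1, abstract form.** -/
theorem exists_eigenLattice
    {O : Type} [CommRing O] [IsDomain O] [IsDiscreteValuationRing O]
    [IsAdicComplete (maximalIdeal O) O] [CharZero O]
    {p : ℕ} (hp : p.Prime) (hpO : (p : O) ∈ maximalIdeal O)
    {J : Type} [AddCommGroup J] {G : Type} [Group G] [DistribMulAction G J]
    {ι : Type} (T : ι → Module.End ℤ J) (c : ι → O)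
    (hT : ∀ i (σ : G) (x : J), T i (σ • x) = σ • T i x)
    (hfin : {x : J | p • x = 0}.Finite)
    (μ : ∀ n, Submodule.torsionBy ℤ J ((p ^ (n + 1) : ℕ) : ℤ) →ₗ[ℤ]
      Submodule.torsionBy ℤ J ((p ^ n : ℕ) : ℤ))
    (hμ : ∀ n (y : Submodule.torsionBy ℤ J ((p ^ (n + 1) : ℕ) : ℤ)),
      ((μ n y : Submodule.torsionBy ℤ J ((p ^ n : ℕ) : ℤ)) : J) = (p : ℤ) • (y : J))
    (Tt : ∀ (_ : ι) (n : ℕ), Submodule.torsionBy ℤ J ((p ^ n : ℕ) : ℤ) →ₗ[ℤ]
      Submodule.torsionBy ℤ J ((p ^ n : ℕ) : ℤ))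
    (hTt : ∀ i n (y : Submodule.torsionBy ℤ J ((p ^ n : ℕ) : ℤ)),
      ((Tt i n y : Submodule.torsionBy ℤ J ((p ^ n : ℕ) : ℤ)) : J) = T i (y : J))
    (x : (n : ℕ) → O ⊗[ℤ] Submodule.torsionBy ℤ J ((p ^ n : ℕ) : ℤ))
    (hx0 : ∃ n, x n ≠ 0)
    (hcompat : ∀ n, (μ n).baseChange O (x (n + 1)) = x n)
    (heig : ∀ i n, (Tt i n).baseChange O (x n) = c i • x n) :
    ∃ (Λ : Type) (_ : AddCommGroup Λ) (_ : Module O Λ) (_ : Module.Free O Λ)
      (_ : Module.Finite O Λ) (_ : Nontrivial Λ) (ρ : G →* Module.End O Λ),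
      (∀ (n : ℕ) (σ : G), (∀ y : J, p ^ n • y = 0 → σ • y = y) →
          ∀ v : Λ, ρ σ v - v ∈ (maximalIdeal O ^ n) • (⊤ : Submodule O Λ)) ∧
      (∀ σ : G, (∀ (n : ℕ) (y : J), p ^ n • y = 0 → σ • y = y) → ρ σ = 1) ∧
      (∀ (σ : G) (i : ι) (ℓ : ℕ),
          (∀ (n : ℕ) (y : J), p ^ n • y = 0 → σ • σ • y - T i (σ • y) + ℓ • y = 0) →
          ρ σ * ρ σ - c i • ρ σ + (ℓ : O) • (1 : Module.End O Λ) = 0) := by
  have hπ0 : (p : O) ≠ 0 := Nat.cast_ne_zero.mpr hp.ne_zero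
  have hfg : (Submodule.torsionBy O (O ⊗[ℤ] J) (p : O)).FG := torsionBy_tensor_fg O p hfin
  have hcomm : ∀ (σ : G) (i : ι) (m : O ⊗[ℤ] J),
      (T i).baseChange O (galBC O J σ m) = galBC O J σ ((T i).baseChange O m) :=
    fun σ i m => galBC_comm O (T i) (hT i) σ m
  have hcast : ∀ (n : ℕ) (m : O ⊗[ℤ] J), (p : O) ^ n • m = 0 →
      ((p ^ n : ℕ) : O) • m = 0 := fun n m hm => by
    rw [Nat.cast_pow]; exact hm
  obtain ⟨X, hX, hXne⟩ := exists_mem_eigenTate_ne_zero T c μ hμ Tt hTt x hx0 hcompat heig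
  refine ⟨eigenTate (p : O) (fun i => (T i).baseChange O) c, inferInstance, inferInstance,
    eigenTate_free hpO hπ0 hfg, eigenTate_finite hpO hπ0 hfg,
    ⟨⟨⟨X, hX⟩, 0, fun h => hXne (congrArg Subtype.val h)⟩⟩,
    eigenTateRep (galBC O J) hcomm, ?_, ?_, ?_⟩
  · intro n σ hfix v
    exact eigenTateRep_sub_mem (galBC O J) hcomm hpO hπ0
      (fun m hm => galBC_fix O (p ^ n) σ hfix m (hcast n m hm)) v
  · intro σ hfix
    apply eigenTateRep_eq_one
    intro n m hm
    exact galBC_fix O (p ^ n) σ (hfix n) m (hcast n m hm)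
  · intro σ i ℓ hq
    exact eigenTateRep_quadratic (h := fun i => (T i).baseChange O) (galBC O J) hcomm i (ℓ : O)
      (fun n m hm => galBC_quadratic O (p ^ n) σ (T i) ℓ (hq n) m (hcast n m hm))

end Fermat.Agent.S30Tate
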