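import Fermat.Agent.S30.Iface
import Fermat.Agent.S30.TateAbstract

set_option autoImplicit false
set_option linter.unusedSectionVars false
set_option linter.style.haveILetI false

/-!
# S30 p-adic core, W1: the Tate lattice of `J₀(N)` at a point `χ` of the Hecke algebra

From the interface propositions of cluster A (`TorsionFinite`, `TorsionUnramified`,
`TorsionFrobQuadratic`, `TorsionOpenStab`, `HeckeGaloisComm`) and the `p`-adic eigen-class
(`EigenclassPadic`) we construct a `FrobLattice p N S 𝒪 (heckeEigenvalue χ)`: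
the `χ`-eigenpart of the `p`-adic Tate module of `𝒪 ⊗ J₀(N)(ℚ̄)`.
-/

noncomputable section

namespace Fermat.Agent.S30

open ModularCurve AlgebraicCurve IsLocalRing
open scoped TensorProduct
open Fermat.Agent.S30Tate

/-- The index set of the Hecke operators: primes `ℓ ∤ N` outside `S`. -/
abbrev HeckeIdx (N : ℕ) (S : Finset ℕ) : Type :=
  {ℓ : ℕ // ℓ.Prime ∧ ¬ ℓ ∣ N ∧ ℓ ∉ (↑S : Set ℕ)}

theorem not_dvd_mul_pow {N p q : ℕ} (hp : p.Prime) (hq : q.Prime) (hqN : ¬ q ∣ N) (hqp : q ≠ p)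
    (n : ℕ) : ¬ q ∣ N * p ^ n := by
  intro h
  rcases (Nat.Prime.dvd_mul hq).mp h with h | h
  · exact hqN h
  · exact hqp ((Nat.prime_dvd_prime_iff_eq hq hp).mp (hq.dvd_of_dvd_pow h))

/-- **W1.**  The Tate lattice: from the interface propositions of cluster A and the `p`-adic
eigen-class we get a `FrobLattice`. -/
theorem frobLattice_of_interfaces (N : ℕ) [NeZero N]
    (hE : EigenclassPadic N) (hFin : F3.TorsionFinite N)
    (hUnr : F3.TorsionUnramified N) (hFrob : F3.TorsionFrobQuadratic N)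
    (hOpen : F3.TorsionOpenStab N) (hComm : F3.HeckeGaloisComm N)
    (p : ℕ) [Fact p.Prime] (S : Finset ℕ) (hpS : p ∈ S)
    (hNS : ∀ q : ℕ, q.Prime → q ∣ N → q ∈ S)
    (𝒪 : Type) [CommRing 𝒪] [IsDomain 𝒪] [IsDiscreteValuationRing 𝒪]
    [IsAdicComplete (maximalIdeal 𝒪) 𝒪] [Finite (ResidueField 𝒪)] [CharZero 𝒪]
    (hp𝒪 : (p : 𝒪) ∈ maximalIdeal 𝒪) (χ : CuspForm.heckeAlgebra N 2 (↑S : Set ℕ) →+* 𝒪) :
    Nonempty (FrobLattice p N S 𝒪 (heckeEigenvalue χ)) := by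
  have hp : p.Prime := Fact.out
  obtain ⟨x, hx0, hcompat, heig⟩ := hE p S hpS hNS 𝒪 hp𝒪 χ
  obtain ⟨Λ, _, _, _, _, _, ρ, hcont, hunr, hfrob⟩ :=
    exists_eigenLattice (O := 𝒪) (G := GQ) (J := JZero N) (ι := HeckeIdx N S) hp hp𝒪
      (fun i => heckeOperatorBar N ⟨i.1, i.2.1⟩)
      (fun i => χ (CuspForm.heckeAlgebra.T i.2.1 i.2.2.1 i.2.2.2))
      (fun i σ y => hComm ⟨i.1, i.2.1⟩ σ y)
      (hFin p hp.pos)
      (fun n => mulPTors N p n)
      (fun n y => mulPTors_coe N p n y)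
      (fun i n => F3.heckeTors N (p ^ n) ⟨i.1, i.2.1⟩)
      (fun i n y => rfl)
      x hx0 hcompat
      (fun i n => heig n i.1 i.2.1 i.2.2.1 i.2.2.2)
  refine ⟨{
    Λ := Λ
    ρ := ρ
    cont := ?_
    unram := ?_
    frob := ?_ }⟩
  · -- adic continuity
    intro n
    have hpos : 0 < p ^ n := pow_pos hp.pos n
    haveI : Finite {y : JZero N // p ^ n • y = 0} := (hFin (p ^ n) hpos).to_subtype
    choose L hLfin hL using fun y : {y : JZero N // p ^ n • y = 0} => hOpen (p ^ n) hpos y.1 y.2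
    haveI : ∀ y, FiniteDimensional ℚ (L y) := hLfin
    refine ⟨⨆ y, L y, inferInstance, fun σ hσ v => ?_⟩
    have hfix : ∀ y : JZero N, p ^ n • y = 0 → σ • y = y := fun y hy =>
      hL ⟨y, hy⟩ σ (fun z hz => hσ z (le_iSup L ⟨y, hy⟩ hz))
    exact hcont n σ hfix v
  · -- unramified
    intro q hq hqN hqp P hP σ hσ
    exact hunr σ (fun n y hy =>
      hUnr (p ^ n) q hq (not_dvd_mul_pow hp hq hqN hqp n) P hP σ hσ y hy)
  · -- Frobenius relation
    intro ℓ hℓ hℓS A hA σ hσ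
    have hℓS' : ℓ ∉ (↑S : Set ℕ) := fun h => hℓS (Finset.mem_coe.mp h)
    have hℓN : ¬ ℓ ∣ N := fun h => hℓS (hNS ℓ hℓ h)
    have hℓp : ℓ ≠ p := fun h => hℓS (h ▸ hpS)
    rw [heckeEigenvalue_eq χ hℓ hℓN hℓS']
    exact hfrob σ (⟨ℓ, hℓ, hℓN, hℓS'⟩ : HeckeIdx N S) ℓ (fun n y hy =>
      hFrob (p ^ n) ℓ hℓ (not_dvd_mul_pow hp hℓ hℓN hℓp n) A hA σ hσ y hy)

end Fermat.Agent.S30
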