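import Fermat.Agent.S30.Assembly
import Fermat.Agent.S30.TateLattice
import Fermat.Agent.Lib.Cyclo.CharData
import Fermat.Agent.F3.FrobDensityLiteFinal

set_option autoImplicit false

/-!
# S30 from the interface propositions of cluster A

`s30At_of_interfaces N` : the six interface propositions at level `N`
(`EigenclassPadic`, `TorsionFinite`, `TorsionUnramified`, `TorsionFrobQuadratic`,
`TorsionOpenStab`, `HeckeGaloisComm`) imply the frozen S30 statement at level `N`.
Frobenius density and the cyclotomic character are unconditional.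
-/

namespace Fermat.Agent.S30

open IsLocalRing

/-- S30 at level `N` from the interface propositions. -/
theorem s30At_of_interfaces (N : ℕ) [NeZero N]
    (hE : EigenclassPadic N) (hFin : F3.TorsionFinite N)
    (hUnr : F3.TorsionUnramified N) (hFrob : F3.TorsionFrobQuadratic N)
    (hOpen : F3.TorsionOpenStab N) (hComm : F3.HeckeGaloisComm N) :
    S30At N :=
  s30At_of_core N F3.frobDensityLite
    (fun p _ 𝒪 _ _ _ _ _ _ hp => ⟨Fermat.Agent.Cyclo.cycloCharData (p := p) (𝒪 := 𝒪) hp⟩)
    (fun p _ S hpS hNS 𝒪 _ _ _ _ _ _ hp χ =>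
      frobLattice_of_interfaces N hE hFin hUnr hFrob hOpen hComm p S hpS hNS 𝒪 hp χ)

end Fermat.Agent.S30
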