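import Mathlib

set_option autoImplicit false

/-!
# S30 p-adic core, part 1: the quadratic relation and Wiles' idempotent identities

`ρ : G →* End_R(Λ)`, `ε : G →* Rˣ`, `t : G → R`, and every `ρ g` is killed by
`X² - t(g) X + ε(g)`  (`QuadRel`).  For an involution `c` with `ε c = -1` and a sign `s`
(`s * s = 1`) we get the identity
`(1 + s ρ(c)) ρ(g) (1 + s ρ(c)) = (t g + s t(c g)) (1 + s ρ(c))`.
-/

namespace Fermat.Agent.S30

open Module

section Identities

variable {R : Type*} [CommRing R] {G : Type*} [Group G]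
  {Λ : Type*} [AddCommGroup Λ] [Module R Λ]

/-- Every `ρ g` is killed by `X² - t(g) X + ε(g)`. -/
def QuadRel (ρ : G →* Module.End R Λ) (ε : G →* Rˣ) (t : G → R) : Prop :=
  ∀ g : G, ρ g * ρ g - t g • ρ g + ((ε g : Rˣ) : R) • (1 : Module.End R Λ) = 0

variable {ρ : G →* Module.End R Λ} {ε : G →* Rˣ} {t : G → R}

theorem rho_mul_rho_inv (ρ : G →* Module.End R Λ) (g : G) : ρ g * ρ g⁻¹ = 1 := by
  rw [← map_mul, mul_inv_cancel, map_one]

theorem rho_inv_mul_rho (ρ : G →* Module.End R Λ) (g : G) : ρ g⁻¹ * ρ g = 1 := by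
  rw [← map_mul, inv_mul_cancel, map_one]

theorem rho_inv_apply_apply (ρ : G →* Module.End R Λ) (g : G) (x : Λ) : ρ g⁻¹ (ρ g x) = x := by
  rw [← Module.End.mul_apply, rho_inv_mul_rho, Module.End.one_apply]

theorem rho_apply_inv_apply (ρ : G →* Module.End R Λ) (g : G) (x : Λ) : ρ g (ρ g⁻¹ x) = x := by
  rw [← Module.End.mul_apply, rho_mul_rho_inv, Module.End.one_apply]

theorem rho_injective (ρ : G →* Module.End R Λ) (g : G) : Function.Injective (ρ g) := by
  intro x y h
  have := congrArg (ρ g⁻¹) h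
  rwa [rho_inv_apply_apply, rho_inv_apply_apply] at this

/-- `ε(g) ρ(g)⁻¹ = t(g) - ρ(g)`. -/
theorem QuadRel.inv_rel (hQ : QuadRel ρ ε t) (g : G) :
    ((ε g : Rˣ) : R) • ρ g⁻¹ = t g • (1 : Module.End R Λ) - ρ g := by
  have h1 : (ρ g * ρ g - t g • ρ g + ((ε g : Rˣ) : R) • (1 : Module.End R Λ)) * ρ g⁻¹ = 0 := by
    rw [hQ g, zero_mul]
  have h2 : ρ g * ρ g⁻¹ = 1 := rho_mul_rho_inv ρ g
  rw [add_mul, sub_mul, mul_assoc, h2, mul_one, smul_mul_assoc, h2, smul_mul_assoc, one_mul] at h1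
  have h3 : ((ε g : Rˣ) : R) • ρ g⁻¹ = -(ρ g - t g • (1 : Module.End R Λ)) :=
    eq_neg_of_add_eq_zero_right h1
  rw [h3]; abel

/-- The anticommutator identity. -/
theorem QuadRel.anticomm (hQ : QuadRel ρ ε t) (g h : G) :
    ρ g * ρ h + ρ h * ρ g =
      (t (g * h) - t g * t h) • (1 : Module.End R Λ) + t h • ρ g + t g • ρ h := by
  have h1 := hQ.inv_rel (g * h)
  have h2 := hQ.inv_rel g
  have h3 := hQ.inv_rel h
  have h4 : ((ε (g * h) : Rˣ) : R) • ρ (g * h)⁻¹ =
      (((ε h : Rˣ) : R) • ρ h⁻¹) * (((ε g : Rˣ) : R) • ρ g⁻¹) := by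
    rw [mul_inv_rev, map_mul, map_mul, Units.val_mul, smul_mul_smul_comm, mul_comm]
  rw [h1, h2, h3, map_mul] at h4
  have h5 : (t h • (1 : Module.End R Λ) - ρ h) * (t g • (1 : Module.End R Λ) - ρ g) =
      (t g * t h) • (1 : Module.End R Λ) - t h • ρ g - t g • ρ h + ρ h * ρ g := by
    rw [sub_mul, mul_sub, mul_sub, smul_mul_smul_comm, one_mul, smul_mul_assoc, one_mul,
      mul_smul_comm, mul_one, mul_comm (t h) (t g)]
    abel
  rw [h5] at h4
  have h6 : ρ g * ρ h + ρ h * ρ g = t (g * h) • (1 : Module.End R Λ)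
      - ((t g * t h) • (1 : Module.End R Λ) - t h • ρ g - t g • ρ h) := by
    rw [eq_sub_iff_add_eq]
    have := h4
    calc ρ g * ρ h + ρ h * ρ g + ((t g * t h) • (1 : Module.End R Λ) - t h • ρ g - t g • ρ h)
        = ρ g * ρ h + ((t g * t h) • (1 : Module.End R Λ) - t h • ρ g - t g • ρ h + ρ h * ρ g) := by
          abel
      _ = ρ g * ρ h + (t (g * h) • (1 : Module.End R Λ) - ρ g * ρ h) := by rw [← h4]
      _ = t (g * h) • (1 : Module.End R Λ) := by abel
  rw [h6, sub_smul]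
  abel

/-- The quadratic relation, elementwise. -/
theorem QuadRel.apply (hQ : QuadRel ρ ε t) (g : G) (x : Λ) :
    ρ g (ρ g x) - t g • ρ g x + ((ε g : Rˣ) : R) • x = 0 := by
  have := congrArg (fun f : Module.End R Λ => f x) (hQ g)
  simpa using this

/-- The anticommutator identity, elementwise. -/
theorem QuadRel.anticomm_apply (hQ : QuadRel ρ ε t) (g h : G) (x : Λ) :
    ρ g (ρ h x) + ρ h (ρ g x) =
      (t (g * h) - t g * t h) • x + t h • ρ g x + t g • ρ h x := by
  have := congrArg (fun f : Module.End R Λ => f x) (hQ.anticomm g h)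
  simpa using this

section Involution

variable {c : G}

theorem rho_invol_apply (ρ : G →* Module.End R Λ) (hc : c * c = 1) (x : Λ) :
    ρ c (ρ c x) = x := by
  rw [← Module.End.mul_apply, ← map_mul, hc, map_one, Module.End.one_apply]

/-- If `ε c = -1`, `c² = 1` and `Λ` has a vector with trivial annihilator then `t c = 0`. -/
theorem QuadRel.t_invol (hQ : QuadRel ρ ε t) (hc : c * c = 1) (hε : ε c = -1)
    (x : Λ) (hx : ∀ r : R, r • x = 0 → r = 0) : t c = 0 := by
  apply hx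
  have h := hQ.apply c (ρ c x)
  simp only [rho_invol_apply ρ hc, hε] at h
  have h' : ρ c x - t c • x + ((-1 : Rˣ) : R) • ρ c x = 0 := h
  rw [Units.val_neg, Units.val_one, neg_one_smul] at h'
  have : t c • x = 0 := by
    have : - (t c • x) = 0 := by
      calc - (t c • x) = ρ c x - t c • x + -ρ c x := by abel
        _ = 0 := h'
    exact neg_eq_zero.mp this
  exact this

/-- Wiles' identity, elementwise: `E g E = (t g + s t(c g)) E` for `E = 1 + s ρ(c)`, `s² = 1`. -/
theorem QuadRel.sign_identity (hQ : QuadRel ρ ε t) (hc : c * c = 1) (htc : t c = 0)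
    (s : R) (hs : s * s = 1) (g : G) (x : Λ) :
    (ρ g (x + s • ρ c x)) + s • ρ c (ρ g (x + s • ρ c x)) =
      (t g + s * t (c * g)) • (x + s • ρ c x) := by
  have h1 := hQ.anticomm_apply c g x
  have h2 := hQ.anticomm_apply c g (ρ c x)
  rw [rho_invol_apply ρ hc] at h2
  rw [htc] at h1 h2
  simp only [zero_mul, sub_zero, zero_smul, add_zero] at h1 h2
  -- h1 : ρ c (ρ g x) + ρ g (ρ c x) = t (c * g) • x + t g • ρ c x
  -- h2 : ρ c (ρ g (ρ c x)) + ρ g x = t (c * g) • ρ c x + t g • x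
  have e1 : ρ c (ρ g x) = t (c * g) • x + t g • ρ c x - ρ g (ρ c x) := eq_sub_of_add_eq h1
  have e2 : ρ c (ρ g (ρ c x)) = t (c * g) • ρ c x + t g • x - ρ g x := eq_sub_of_add_eq h2
  simp only [map_add, map_smul, smul_add, e1, e2, smul_sub, smul_smul, add_smul, hs, one_smul]
  match_scalars <;>
    first
    | ring1
    | linear_combination (t g) * hs

/-- Consequence for eigenvectors of `ρ c`. -/
theorem QuadRel.sign_eigen (hQ : QuadRel ρ ε t) (hc : c * c = 1) (htc : t c = 0)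
    (h2 : ∀ y : Λ, (2 : R) • y = 0 → y = 0)
    (s : R) (hs : s * s = 1) (g : G) (u : Λ) (hu : ρ c u = s • u) :
    ρ g u + s • ρ c (ρ g u) = (t g + s * t (c * g)) • u := by
  have h := hQ.sign_identity hc htc s hs g u
  rw [hu, smul_smul, hs, one_smul] at h
  have e : u + u = (2 : R) • u := (two_smul R u).symm
  rw [e, map_smul, map_smul, smul_comm s (2 : R), ← smul_add, smul_comm _ (2 : R)] at h
  have h' : (2 : R) • (ρ g u + s • ρ c (ρ g u) - (t g + s * t (c * g)) • u) = 0 := by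
    rw [smul_sub, h, sub_self]
  exact sub_eq_zero.mp (h2 _ h')

end Involution

end Identities

end Fermat.Agent.S30
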