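import Fermat.Agent.S30.WilesPlane

set_option autoImplicit false

/-!
# S30 p-adic core, part 5: Wiles' algebra, main theorem

`Λ ≠ 0` finite free over a discrete valuation ring `R` of characteristic zero, `G` acting on `Λ`
with the quadratic relation `QuadRel ρ ε t`, and an involution `c ∈ G` with `ε c = -1`.  Then
there is a free `R`-module of rank two with an action of `G` with characteristic polynomials
`X² - t(g) X + ε(g)` (`RepConclusion`).
-/

namespace Fermat.Agent.S30

open Module Polynomial IsLocalRing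

section GSpan

variable {R : Type*} [CommRing R] {G : Type*} [Group G]
  {Λ : Type*} [AddCommGroup Λ] [Module R Λ]

/-- The `R`-span of the orbit of `u`. -/
def gSpan (ρ : G →* Module.End R Λ) (u : Λ) : Submodule R Λ :=
  Submodule.span R (Set.range fun g : G => ρ g u)

theorem mem_gSpan_self (ρ : G →* Module.End R Λ) (u : Λ) : u ∈ gSpan ρ u := by
  apply Submodule.subset_span
  exact ⟨1, by simp⟩

theorem gSpan_stable (ρ : G →* Module.End R Λ) (u : Λ) (g : G) :
    ∀ x ∈ gSpan ρ u, ρ g x ∈ gSpan ρ u := by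
  have : gSpan ρ u ≤ (gSpan ρ u).comap (ρ g) := by
    apply Submodule.span_le.mpr
    rintro _ ⟨h, rfl⟩
    show ρ g (ρ h u) ∈ gSpan ρ u
    apply Submodule.subset_span
    exact ⟨g * h, by simp⟩
  exact fun x hx => this hx

theorem gSpan_le (ρ : G →* Module.End R Λ) (u : Λ) (M : Submodule R Λ) (hu : u ∈ M)
    (hM : ∀ (g : G) (x : Λ), x ∈ M → ρ g x ∈ M) : gSpan ρ u ≤ M := by
  apply Submodule.span_le.mpr
  rintro _ ⟨g, rfl⟩
  exact hM g u hu

end GSpan

section Step

variable {R : Type*} [CommRing R] [IsDomain R] {G : Type*} [Group G]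
  {Λ : Type*} [AddCommGroup Λ] [Module R Λ] [Module.IsTorsionFree R Λ]
  {ρ : G →* Module.End R Λ} {ε : G →* Rˣ} {t : G → R} {c : G}

/-- The `s`-eigenvectors of `ρ(c)` in the saturated orbit module of an `s`-eigenvector `u` lie
on the saturated line through `u`. -/
theorem eigen_mem_satSub_span (hQ : QuadRel ρ ε t) (hc : c * c = 1) (htc : t c = 0)
    (h2R : (2 : R) ≠ 0) (s : R) (hs : s * s = 1) (u : Λ) (hcu : ρ c u = s • u)
    (x : Λ) (hx : x ∈ satSub (gSpan ρ u)) (hcx : ρ c x = s • x) :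
    x ∈ satSub (Submodule.span R {u}) := by
  have h2 : ∀ y : Λ, (2 : R) • y = 0 → y = 0 := fun y hy =>
    (smul_eq_zero.mp hy).resolve_left h2R
  let E : Λ →ₗ[R] Λ := LinearMap.id + s • ρ c
  have hE : gSpan ρ u ≤ (Submodule.span R {u}).comap E := by
    apply Submodule.span_le.mpr
    rintro _ ⟨g, rfl⟩
    show E (ρ g u) ∈ Submodule.span R {u}
    have := hQ.sign_eigen hc htc h2 s hs g u hcu
    have e : E (ρ g u) = ρ g u + s • ρ c (ρ g u) := rfl
    rw [e, this]
    exact Submodule.smul_mem _ _ (Submodule.mem_span_singleton_self u)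
  obtain ⟨r, hr, hrx⟩ := hx
  refine ⟨2 * r, mul_ne_zero h2R hr, ?_⟩
  have h1 : E (r • x) ∈ Submodule.span R {u} := hE hrx
  have e : E (r • x) = (2 * r) • x := by
    show r • x + s • ρ c (r • x) = (2 * r) • x
    rw [map_smul, hcx, smul_smul, smul_smul, ← add_smul]
    congr 1
    linear_combination r * hs
  rwa [e] at h1

end Step

section Main

variable {R : Type} [CommRing R] [IsDomain R] [IsDiscreteValuationRing R] [CharZero R]
  {G : Type*} [Group G]
  {Λ : Type} [AddCommGroup Λ] [Module R Λ] [Module.Free R Λ] [Module.Finite R Λ] [Nontrivial Λ]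

omit [Nontrivial Λ] in
/-- One step of the case analysis: from an `s`-eigenvector `u ≠ 0` of `ρ(c)` we get either the
line case, or a nonzero `(-s)`-eigenvector in the saturated orbit module of `u`. -/
theorem line_or_eigen (ρ : G →* Module.End R Λ) (ε : G →* Rˣ) (t : G → R)
    (hQ : QuadRel ρ ε t) (c : G) (hc : c * c = 1) (htc : t c = 0)
    (s : R) (hs : s * s = 1) (u : Λ) (hu0 : u ≠ 0) (hcu : ρ c u = s • u) :
    RepConclusion ρ ε t ∨
      ∃ w ∈ satSub (gSpan ρ u), w ≠ 0 ∧ ρ c w = (-s) • w := by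
  classical
  have h2R : (2 : R) ≠ 0 := two_ne_zero
  by_cases hex : ∃ w ∈ satSub (gSpan ρ u), w ≠ 0 ∧ ρ c w = (-s) • w
  · exact Or.inr hex
  · left
    simp only [not_exists, not_and] at hex
    have hMstab : ∀ (g : G) (x : Λ), x ∈ satSub (gSpan ρ u) → ρ g x ∈ satSub (gSpan ρ u) :=
      fun g x hx => map_mem_satSub (ρ g) (gSpan_stable ρ u g) hx
    -- every element of `M` is an `s`-eigenvector
    have hall : ∀ x ∈ satSub (gSpan ρ u), x ∈ satSub (Submodule.span R {u}) := by
      intro x hx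
      have hcx : ρ c x ∈ satSub (gSpan ρ u) := hMstab c x hx
      have hm : x + (-s) • ρ c x ∈ satSub (gSpan ρ u) :=
        Submodule.add_mem _ hx (Submodule.smul_mem _ _ hcx)
      have hm0 : x + (-s) • ρ c x = 0 := by
        by_contra hne
        refine hex _ hm hne ?_
        rw [map_add, map_smul, rho_invol_apply ρ hc, smul_add, smul_smul, neg_mul_neg, hs,
          one_smul, add_comm]
      have hcx' : ρ c x = s • x := by
        have h1 : x = s • ρ c x := by
          rw [neg_smul, ← sub_eq_add_neg, sub_eq_zero] at hm0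
          exact hm0
        conv_rhs => rw [h1]
        rw [smul_smul, hs, one_smul]
      exact eigen_mem_satSub_span hQ hc htc h2R s hs u hcu x hx hcx'
    obtain ⟨r, u₁, hr, hru, hprim⟩ := exists_primVec_of_ne_zero (R := R) hu0
    have hu₁0 : u₁ ≠ 0 := by
      rintro rfl
      rw [smul_zero] at hru
      exact hu0 hru
    have hle : satSub (Submodule.span R {u}) ≤ Submodule.span R {u₁} := by
      rw [← hprim.satSub_span]
      apply satSub_mono
      rw [Submodule.span_singleton_le_iff_mem, hru]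
      exact Submodule.smul_mem _ _ (Submodule.mem_span_singleton_self u₁)
    have hu₁M : u₁ ∈ satSub (gSpan ρ u) := by
      apply isSatSub_satSub _ r u₁ hr
      rw [← hru]
      exact le_satSub _ (mem_gSpan_self ρ u)
    exact repConclusion_of_line ρ ε t hQ u₁ hprim hu₁0
      (fun g => hle (hall _ (hMstab g u₁ hu₁M)))

/-- **Wiles' algebra.** -/
theorem repConclusion_of_quadRel (ρ : G →* Module.End R Λ) (ε : G →* Rˣ) (t : G → R)
    (hQ : QuadRel ρ ε t) (c : G) (hc : c * c = 1) (hεc : ε c = -1) :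
    RepConclusion ρ ε t := by
  classical
  have h2R : (2 : R) ≠ 0 := two_ne_zero
  obtain ⟨x₀, hx₀⟩ := exists_ne (0 : Λ)
  have htc : t c = 0 :=
    hQ.t_invol hc hεc x₀ (fun r hr => (smul_eq_zero.mp hr).resolve_right hx₀)
  -- a nonzero eigenvector of `ρ c`
  have hex : ∃ (s : R) (u : Λ), s * s = 1 ∧ u ≠ 0 ∧ ρ c u = s • u := by
    by_cases h1 : x₀ + ρ c x₀ = 0
    · refine ⟨-1, x₀ + (-1 : R) • ρ c x₀, by ring, ?_, ?_⟩
      · intro h
        have : (2 : R) • x₀ = 0 := by
          have e : (2 : R) • x₀ = (x₀ + ρ c x₀) + (x₀ + (-1 : R) • ρ c x₀) := by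
            rw [two_smul, neg_one_smul]; abel
          rw [e, h1, h, add_zero]
        exact hx₀ ((smul_eq_zero.mp this).resolve_left h2R)
      · rw [map_add, map_smul, rho_invol_apply ρ hc, smul_add, smul_smul]
        simp only [neg_mul_neg, one_smul, mul_one]
        rw [add_comm]
    · refine ⟨1, x₀ + ρ c x₀, by ring, h1, ?_⟩
      rw [map_add, rho_invol_apply ρ hc, one_smul, add_comm]
  obtain ⟨s, u, hs, hu0, hcu⟩ := hex
  have hs' : (-s) * (-s) = 1 := by rw [neg_mul_neg, hs]
  rcases line_or_eigen ρ ε t hQ c hc htc s hs u hu0 hcu with h | ⟨w, hwM, hw0, hcw⟩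
  · exact h
  rcases line_or_eigen ρ ε t hQ c hc htc (-s) hs' w hw0 hcw with h | ⟨u', hu'M, hu'0, hcu'⟩
  · exact h
  rw [neg_neg] at hcu'
  -- plane case, with `M' = satSub (gSpan ρ w)`
  have hMstab : ∀ (g : G) (x : Λ), x ∈ satSub (gSpan ρ u) → ρ g x ∈ satSub (gSpan ρ u) :=
    fun g x hx => map_mem_satSub (ρ g) (gSpan_stable ρ u g) hx
  have hM'stab : ∀ (g : G) (x : Λ), x ∈ satSub (gSpan ρ w) → ρ g x ∈ satSub (gSpan ρ w) :=
    fun g x hx => map_mem_satSub (ρ g) (gSpan_stable ρ w g) hx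
  have hM'M : satSub (gSpan ρ w) ≤ satSub (gSpan ρ u) :=
    satSub_le (gSpan_le ρ w _ hwM hMstab) (isSatSub_satSub _)
  obtain ⟨r, u₁, hr, hru, hprimu⟩ := exists_primVec_of_ne_zero (R := R) hu0
  obtain ⟨r', w₁, hr', hrw, hprimw⟩ := exists_primVec_of_ne_zero (R := R) hw0
  have hleu : satSub (Submodule.span R {u}) ≤ Submodule.span R {u₁} := by
    rw [← hprimu.satSub_span]
    apply satSub_mono
    rw [Submodule.span_singleton_le_iff_mem, hru]
    exact Submodule.smul_mem _ _ (Submodule.mem_span_singleton_self u₁)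
  have hlew : satSub (Submodule.span R {w}) ≤ Submodule.span R {w₁} := by
    rw [← hprimw.satSub_span]
    apply satSub_mono
    rw [Submodule.span_singleton_le_iff_mem, hrw]
    exact Submodule.smul_mem _ _ (Submodule.mem_span_singleton_self w₁)
  have hplus : ∀ x ∈ satSub (gSpan ρ w), ρ c x = s • x → x ∈ Submodule.span R {u₁} :=
    fun x hx hcx => hleu (eigen_mem_satSub_span hQ hc htc h2R s hs u hcu x (hM'M hx) hcx)
  have hminus : ∀ x ∈ satSub (gSpan ρ w), ρ c x = (-s) • x → x ∈ Submodule.span R {w₁} :=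
    fun x hx hcx => hlew (eigen_mem_satSub_span hQ hc htc h2R (-s) hs' w hcw x hx hcx)
  -- `u₁`, `w₁` lie in `M'` and are eigenvectors
  obtain ⟨a, ha⟩ := Submodule.mem_span_singleton.mp (hplus u' hu'M hcu')
  have ha0 : a ≠ 0 := by
    rintro rfl
    rw [zero_smul] at ha
    exact hu'0 ha.symm
  have hu₁M' : u₁ ∈ satSub (gSpan ρ w) := by
    apply isSatSub_satSub _ a u₁ ha0
    rw [ha]; exact hu'M
  have hu₁0 : u₁ ≠ 0 := by
    rintro rfl
    rw [smul_zero] at hru
    exact hu0 hru
  have hw₁0 : w₁ ≠ 0 := by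
    rintro rfl
    rw [smul_zero] at hrw
    exact hw0 hrw
  have hcu₁ : ρ c u₁ = s • u₁ := by
    have h1 : r • (ρ c u₁ - s • u₁) = 0 := by
      rw [smul_sub, ← map_smul, ← hru, hcu, hru, smul_comm, sub_self]
    exact sub_eq_zero.mp ((smul_eq_zero.mp h1).resolve_left hr)
  have hw₁M' : w₁ ∈ satSub (gSpan ρ w) := by
    apply isSatSub_satSub _ r' w₁ hr'
    rw [← hrw]
    exact le_satSub _ (mem_gSpan_self ρ w)
  have hcw₁ : ρ c w₁ = (-s) • w₁ := by
    have h1 : r' • (ρ c w₁ - (-s) • w₁) = 0 := by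
      rw [smul_sub, ← map_smul, ← hrw, hcw, hrw, smul_comm, sub_self]
    exact sub_eq_zero.mp ((smul_eq_zero.mp h1).resolve_left hr')
  exact repConclusion_of_plane ρ ε t hQ c hc htc s hs (satSub (gSpan ρ w)) (isSatSub_satSub _)
    hM'stab u₁ w₁ hu₁M' hw₁M' hu₁0 hw₁0 hcu₁ hcw₁ hplus hminus

end Main

end Fermat.Agent.S30
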