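import Fermat.Agent.S30.DensityGal
import Fermat.Agent.S30.WilesMain

set_option autoImplicit false

/-!
# S30 p-adic core, part 8: assembly

`FrobDensityLite` + `CycloCharData p 𝒪` + `FrobLattice p N S 𝒪 (heckeEigenvalue χ)`
  ⟹ the conclusion of S30 for `(p, S, 𝒪, χ)`, with `𝒪'' = 𝒪`.
-/

namespace Fermat.Agent.S30

open Module IsLocalRing Polynomial

section

variable {p N : ℕ} {S : Finset ℕ} {𝒪 : Type} [CommRing 𝒪] [IsDomain 𝒪]
  [IsDiscreteValuationRing 𝒪] [CharZero 𝒪]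

/-- The Galois representation attached to a `FrobLattice`. -/
theorem exists_galoisRepAdic_of_frobLattice (hdens : F3.FrobDensityLite) (hpS : p ∈ S)
    (a : ℕ → 𝒪) (L : FrobLattice p N S 𝒪 a) (E : CycloCharData p 𝒪) :
    ∃ ρ : GaloisRepAdic 𝒪,
      (∀ ℓ : ℕ, ℓ.Prime → ℓ ∉ S →
        ∀ A : ValuationSubring (AlgebraicClosure ℚ), A.LiesOverPrime ℓ →
          ∀ σ : GQ, A.IsFrobeniusAt σ ℓ →
            LinearMap.charpoly (ρ.ρ σ) = X ^ 2 - C (a ℓ) * X + C ((ℓ : 𝒪))) ∧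
      (∀ q : ℕ, q.Prime → ¬ q ∣ N → q ≠ p → ρ.IsUnramifiedAt q) := by
  obtain ⟨t, hQ, ht⟩ := exists_quadRel_of_frobLattice hdens hpS a L E
  obtain ⟨V, iV1, iV2, iV3, iV4, ρ', hfin, hchar, hcont, hker⟩ :=
    repConclusion_of_quadRel L.ρ E.ε t hQ complexConjugation complexConjugation_mul_self E.conj
  have hadic : GaloisActionIsAdicContinuous 𝒪 ρ' := by
    intro n
    obtain ⟨L₁, hL₁fin, hL₁⟩ := L.cont n
    obtain ⟨L₂, hL₂fin, hL₂⟩ := E.level n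
    refine ⟨L₁ ⊔ L₂, IntermediateField.finiteDimensional_sup L₁ L₂, ?_⟩
    intro σ hσ v
    exact hcont n σ (hL₁ σ (fun x hx => hσ x (le_sup_left (a := L₁) (b := L₂) hx)))
      (hL₂ σ (fun x hx => hσ x (le_sup_right (a := L₁) (b := L₂) hx))) v
  refine ⟨{ V := V, finrank_eq := hfin, ρ := ρ', isAdicContinuous := hadic }, ?_, ?_⟩
  · intro ℓ hℓ hℓS A hA σ hσ
    have hℓp : ℓ ≠ p := fun h => hℓS (h ▸ hpS)
    show LinearMap.charpoly (ρ' σ) = _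
    rw [hchar σ, ht ℓ hℓ hℓS A hA σ hσ, E.frob ℓ hℓ hℓp A hA σ hσ]
  · intro q hq hqN hqp P hP σ hσ
    show ρ' σ = 1
    exact hker σ (L.unram q hq hqN hqp P hP σ hσ) (E.inertia q hq hqp P hP σ hσ)

end

/-- **S30 at level `N`** from the three inputs of the core. -/
theorem s30At_of_core (N : ℕ) [NeZero N] (hdens : F3.FrobDensityLite)
    (hcyc : ∀ (p : ℕ) [Fact p.Prime] (𝒪 : Type) [CommRing 𝒪] [IsDomain 𝒪]
      [IsDiscreteValuationRing 𝒪] [IsAdicComplete (maximalIdeal 𝒪) 𝒪]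
      [Finite (ResidueField 𝒪)] [CharZero 𝒪], (p : 𝒪) ∈ maximalIdeal 𝒪 →
      Nonempty (CycloCharData p 𝒪))
    (hlat : ∀ (p : ℕ) [Fact p.Prime] (S : Finset ℕ), p ∈ S →
      (∀ q : ℕ, q.Prime → q ∣ N → q ∈ S) →
      ∀ (𝒪 : Type) [CommRing 𝒪] [IsDomain 𝒪] [IsDiscreteValuationRing 𝒪]
        [IsAdicComplete (maximalIdeal 𝒪) 𝒪] [Finite (ResidueField 𝒪)] [CharZero 𝒪],
        (p : 𝒪) ∈ maximalIdeal 𝒪 →
        ∀ χ : CuspForm.heckeAlgebra N 2 (↑S : Set ℕ) →+* 𝒪,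
          Nonempty (FrobLattice p N S 𝒪 (heckeEigenvalue χ))) :
    S30At N := by
  intro p _ S hpS hNS 𝒪' _ _ _ _ _ _ hp χ
  obtain ⟨E⟩ := hcyc p 𝒪' hp
  obtain ⟨L⟩ := hlat p S hpS hNS 𝒪' hp χ
  obtain ⟨ρ, hρ, hunr⟩ := exists_galoisRepAdic_of_frobLattice hdens hpS (heckeEigenvalue χ) L E
  refine ⟨𝒪', inferInstance, inferInstance, inferInstance, inferInstance, inferInstance,
    inferInstance, Algebra.id 𝒪', inferInstance, ?_, Function.injective_id, ρ, ?_, hunr⟩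
  · exact ⟨fun _ h => h⟩
  · intro ℓ hℓ hℓN hℓS A hA σ hσ
    have hℓS' : ℓ ∉ S := fun h => hℓS (Finset.mem_coe.mpr h)
    rw [hρ ℓ hℓ hℓS' A hA σ hσ, heckeEigenvalue_eq χ hℓ hℓN hℓS]
    rfl

end Fermat.Agent.S30
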