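import Fermat.Agent.S30.Iface
import Fermat.Agent.S30.DensityAlg

set_option autoImplicit false

/-!
# S30 p-adic core, part 7: the quadratic relation for every element of `G_ℚ`

From `F3.FrobDensityLite`, a `FrobLattice` and the cyclotomic character we get a function
`t : G_ℚ → 𝒪` with `ρ(g)² - t(g) ρ(g) + ε(g) = 0` for every `g`, and `t(σ) = a_ℓ` for every
Frobenius element `σ` at a prime `ℓ ∉ S`.
-/

namespace Fermat.Agent.S30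

open Module IsLocalRing

section

local instance isAlgebraicQbar_s30 : Algebra.IsAlgebraic ℚ (AlgebraicClosure ℚ) :=
  AlgebraicClosure.isAlgebraic ℚ
local instance isAlgClosureQbar_s30 : IsAlgClosure ℚ (AlgebraicClosure ℚ) :=
  ⟨inferInstance, inferInstance⟩
local instance normalQbar_s30 : Normal ℚ (AlgebraicClosure ℚ) :=
  IsAlgClosure.normal ℚ (AlgebraicClosure ℚ)

variable {p N : ℕ} {S : Finset ℕ} {𝒪 : Type} [CommRing 𝒪] [IsDomain 𝒪]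
  [IsDiscreteValuationRing 𝒪]

/-- For every `g` and every `n`, `ρ g + ε(g) ρ(g)⁻¹` is congruent to a scalar mod `𝔪 ^ n`. -/
theorem exists_scalar_cong_galois (hdens : F3.FrobDensityLite) (hpS : p ∈ S) (a : ℕ → 𝒪)
    (L : FrobLattice p N S 𝒪 a) (E : CycloCharData p 𝒪) (g : GQ) (n : ℕ) :
    ∃ v : 𝒪, SmallEnd (maximalIdeal 𝒪 ^ n)
      (L.ρ g + ((E.ε g : 𝒪ˣ) : 𝒪) • L.ρ g⁻¹ - v • (1 : Module.End 𝒪 L.Λ)) := by
  obtain ⟨L₁, hL₁fin, hL₁⟩ := L.cont n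
  obtain ⟨L₂, hL₂fin, hL₂⟩ := E.level n
  let L₀ : IntermediateField ℚ (AlgebraicClosure ℚ) :=
    IntermediateField.normalClosure ℚ ↥(L₁ ⊔ L₂) (AlgebraicClosure ℚ)
  have hL₀fin : FiniteDimensional ℚ L₀ := inferInstance
  have hL₀norm : Normal ℚ L₀ :=
    normalClosure.normal ℚ ↥(L₁ ⊔ L₂) (AlgebraicClosure ℚ)
  have hle : L₁ ⊔ L₂ ≤ L₀ := IntermediateField.le_normalClosure _
  have hle₁ : L₁ ≤ L₀ := le_sup_left.trans hle
  have hle₂ : L₂ ≤ L₀ := le_sup_right.trans hle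
  obtain ⟨ℓ, A, τ, k, j, hℓ, hℓS, hA, hτ, hτk, hkj⟩ := hdens L₀ hL₀fin hL₀norm g S
  have hℓp : ℓ ≠ p := fun h => hℓS (h ▸ hpS)
  -- the two elements fixing `L₀`
  have hfix₁ : ∀ x ∈ L₀, (τ⁻¹ * g ^ k) x = x := by
    intro x hx
    rw [AlgEquiv.mul_apply, ← hτk x hx, AlgEquiv.aut_inv, AlgEquiv.symm_apply_apply]
  have hfix₂ : ∀ x ∈ L₀, (g⁻¹ * g ^ (k * j)) x = x := by
    intro x hx
    rw [AlgEquiv.mul_apply, hkj x hx, AlgEquiv.aut_inv, AlgEquiv.symm_apply_apply]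
  have h1 : SmallEnd (maximalIdeal 𝒪 ^ n) (L.ρ (τ⁻¹ * g ^ k) - 1) := by
    intro x
    exact hL₁ _ (fun y hy => hfix₁ y (hle₁ hy)) x
  have h2 : SmallEnd (maximalIdeal 𝒪 ^ n) (L.ρ (g⁻¹ * g ^ (k * j)) - 1) := by
    intro x
    exact hL₁ _ (fun y hy => hfix₂ y (hle₁ hy)) x
  have e1 := hL₂ _ (fun y hy => hfix₁ y (hle₂ hy))
  have e2 := hL₂ _ (fun y hy => hfix₂ y (hle₂ hy))
  exact exists_scalar_cong L.ρ E.ε (maximalIdeal 𝒪 ^ n) g τ k j (a ℓ) (ℓ : 𝒪)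
    (L.frob ℓ hℓ hℓS A hA τ hτ) (E.frob ℓ hℓ hℓp A hA τ hτ) h1 h2 e1 e2

/-- **The quadratic relation for all of `G_ℚ`.** -/
theorem exists_quadRel_of_frobLattice (hdens : F3.FrobDensityLite) (hpS : p ∈ S) (a : ℕ → 𝒪)
    (L : FrobLattice p N S 𝒪 a) (E : CycloCharData p 𝒪) :
    ∃ t : GQ → 𝒪, QuadRel L.ρ E.ε t ∧
      ∀ ℓ : ℕ, ℓ.Prime → ℓ ∉ S →
        ∀ A : ValuationSubring (AlgebraicClosure ℚ), A.LiesOverPrime ℓ →
          ∀ σ : GQ, A.IsFrobeniusAt σ ℓ → t σ = a ℓ := by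
  have hsc : ∀ g : GQ, ∃ t : 𝒪,
      L.ρ g + ((E.ε g : 𝒪ˣ) : 𝒪) • L.ρ g⁻¹ = t • (1 : Module.End 𝒪 L.Λ) := fun g =>
    exists_eq_smul_one_of_forall_smallEnd _
      (fun n => exists_scalar_cong_galois hdens hpS a L E g n)
  choose t ht using hsc
  have hQ : QuadRel L.ρ E.ε t := quadRel_of_scalar L.ρ E.ε t ht
  refine ⟨t, hQ, ?_⟩
  intro ℓ hℓ hℓS A hA σ hσ
  have hℓp : ℓ ≠ p := fun h => hℓS (h ▸ hpS)
  have h1 := hQ σ
  have h2 := L.frob ℓ hℓ hℓS A hA σ hσ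
  have h3 := E.frob ℓ hℓ hℓp A hA σ hσ
  rw [h3] at h1
  have h4 : (t σ - a ℓ) • L.ρ σ = 0 := by
    have : (t σ - a ℓ) • L.ρ σ =
        (L.ρ σ * L.ρ σ - a ℓ • L.ρ σ + (ℓ : 𝒪) • (1 : Module.End 𝒪 L.Λ))
          - (L.ρ σ * L.ρ σ - t σ • L.ρ σ + (ℓ : 𝒪) • (1 : Module.End 𝒪 L.Λ)) := by
      rw [sub_smul]; abel
    rw [this, h1, h2, sub_zero]
  obtain ⟨x₀, hx₀⟩ := exists_ne (0 : L.Λ)
  have h5 : (t σ - a ℓ) • (L.ρ σ x₀) = 0 := by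
    have := congrArg (fun F : Module.End 𝒪 L.Λ => F x₀) h4
    simpa using this
  have h6 : L.ρ σ x₀ ≠ 0 := by
    intro h
    apply hx₀
    have := rho_inv_apply_apply L.ρ σ x₀
    rw [h, map_zero] at this
    exact this.symm
  exact sub_eq_zero.mp ((smul_eq_zero.mp h5).resolve_right h6)

end

end Fermat.Agent.S30
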