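import Mathlib
import Fermat.Prelude.Thm_IsAdicComplete_of_module_finite

set_option autoImplicit false
set_option linter.unusedSectionVars false
set_option linter.style.haveILetI false

/-!
# S30 p-adic core, W1 (abstract part): the Tate module of a module over a complete DVR

`O` a commutative ring, `π : O`, `M` an `O`-module.  The *Tate module* `tate π M` is the module of
sequences `x : ℕ → M` with `x 0 = 0` and `π • x (n + 1) = x n`.

If `O` is a complete discrete valuation ring, `π ≠ 0` lies in the maximal ideal and the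
`π`-torsion of `M` is finitely generated, then `tate π M` is a finite free `O`-module, and so
is every saturated submodule, in particular the simultaneous eigenspace `eigenTate` of a family
of endomorphisms of `M`.
-/

noncomputable section

namespace Fermat.Agent.S30Tate

open IsLocalRing

section Basic

variable {O : Type*} [CommRing O] (π : O) (M : Type*) [AddCommGroup M] [Module O M]

/-- The `π`-adic Tate module of `M`: sequences `x` with `x 0 = 0` and `π • x (n+1) = x n`. -/
def tate : Submodule O (ℕ → M) where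
  carrier := {x | x 0 = 0 ∧ ∀ n, π • x (n + 1) = x n}
  add_mem' := by
    rintro x y ⟨hx0, hx⟩ ⟨hy0, hy⟩
    refine ⟨by simp [hx0, hy0], fun n => ?_⟩
    simp [smul_add, hx n, hy n]
  zero_mem' := ⟨rfl, fun n => by simp⟩
  smul_mem' := by
    rintro a x ⟨hx0, hx⟩
    refine ⟨by simp [hx0], fun n => ?_⟩
    simp only [Pi.smul_apply]
    rw [smul_comm, hx n]

variable {π M}

theorem mem_tate {x : ℕ → M} : x ∈ tate π M ↔ x 0 = 0 ∧ ∀ n, π • x (n + 1) = x n := Iff.rfl

theorem tate_zero {x : ℕ → M} (hx : x ∈ tate π M) : x 0 = 0 := hx.1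

theorem tate_succ {x : ℕ → M} (hx : x ∈ tate π M) (n : ℕ) : π • x (n + 1) = x n := hx.2 n

theorem tate_pow_smul {x : ℕ → M} (hx : x ∈ tate π M) (k n : ℕ) : π ^ k • x (n + k) = x n := by
  induction k generalizing n with
  | zero => simp
  | succ k ih =>
    rw [pow_succ, mul_smul, ← add_assoc, tate_succ hx, ih]

theorem tate_pow_smul_self {x : ℕ → M} (hx : x ∈ tate π M) (n : ℕ) : π ^ n • x n = 0 := by
  have := tate_pow_smul hx n 0
  rw [zero_add] at this
  rw [this, tate_zero hx]

/-- The shifted sequence. -/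
theorem shift_mem_tate {x : ℕ → M} (hx : x ∈ tate π M) {m : ℕ} (hm : x m = 0) :
    (fun n => x (n + m)) ∈ tate π M := by
  refine ⟨by simpa using hm, fun n => ?_⟩
  have := tate_succ hx (n + m)
  show π • x (n + 1 + m) = x (n + m)
  rw [show n + 1 + m = n + m + 1 by ring]
  exact this

/-- The kernel of the evaluation at `m` is `π ^ m • tate`. -/
theorem exists_eq_pow_smul {x : ℕ → M} (hx : x ∈ tate π M) {m : ℕ} (hm : x m = 0) :
    ∃ y ∈ tate π M, x = π ^ m • y := by
  refine ⟨fun n => x (n + m), shift_mem_tate hx hm, ?_⟩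
  funext n
  simp only [Pi.smul_apply]
  exact (tate_pow_smul hx m n).symm

theorem pow_smul_apply_self {y : ℕ → M} (hy : y ∈ tate π M) (n : ℕ) :
    (π ^ n • y) n = 0 := by
  simp only [Pi.smul_apply]
  exact tate_pow_smul_self hy n

end Basic

section DVR

variable {O : Type*} [CommRing O] [IsDomain O] [IsDiscreteValuationRing O]

/-- In a DVR every nonzero principal ideal is a power of the maximal ideal. -/
theorem exists_span_eq_maximalIdeal_pow {a : O} (ha : a ≠ 0) :
    ∃ k : ℕ, Ideal.span {a} = maximalIdeal O ^ k := by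
  obtain ⟨ϖ, hϖ⟩ := IsDiscreteValuationRing.exists_irreducible O
  obtain ⟨k, hk⟩ := IsDiscreteValuationRing.ideal_eq_span_pow_irreducible
    (s := Ideal.span {a}) (by simpa using ha) hϖ
  refine ⟨k, ?_⟩
  rw [hk, hϖ.maximalIdeal_eq, Ideal.span_singleton_pow]

theorem exists_dvd_pow {a π : O} (ha : a ≠ 0) (hπ : π ∈ maximalIdeal O) :
    ∃ k : ℕ, a ∣ π ^ k := by
  obtain ⟨k, hk⟩ := exists_span_eq_maximalIdeal_pow ha
  refine ⟨k, ?_⟩
  have : π ^ k ∈ Ideal.span {a} := by
    rw [hk]
    exact Ideal.pow_mem_pow hπ k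
  exact Ideal.mem_span_singleton.mp this

variable {π : O} {M : Type*} [AddCommGroup M] [Module O M]

/-- The Tate module is torsion-free. -/
theorem tate_smul_eq_zero (hπ : π ∈ maximalIdeal O) {a : O} (ha : a ≠ 0) {x : ℕ → M}
    (hx : x ∈ tate π M) (hax : a • x = 0) : x = 0 := by
  obtain ⟨k, b, hb⟩ := exists_dvd_pow ha hπ
  have h1 : π ^ k • x = 0 := by
    rw [hb, mul_comm, mul_smul, hax, smul_zero]
  funext n
  have h2 := tate_pow_smul hx k n
  have h3 : (π ^ k • x) (n + k) = 0 := by rw [h1]; rfl
  simp only [Pi.smul_apply] at h3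
  rw [← h2, h3]
  rfl

theorem tate_isTorsionFree (hπ : π ∈ maximalIdeal O) : Module.IsTorsionFree O (tate π M) := by
  refine Module.IsTorsionFree.of_smul_eq_zero fun a x hax => ?_
  by_cases ha : a = 0
  · exact Or.inl ha
  · right
    apply Subtype.ext
    apply tate_smul_eq_zero hπ ha x.2
    have := congrArg Subtype.val hax
    simpa using this

/-- The Tate module is `𝔪`-adically separated. -/
theorem tate_isHausdorff (hπ0 : π ≠ 0) : IsHausdorff (maximalIdeal O) (tate π M) := by
  refine ⟨fun x hx => ?_⟩
  apply Subtype.ext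
  funext n
  obtain ⟨k, hk⟩ := exists_span_eq_maximalIdeal_pow (pow_ne_zero n hπ0)
  have h1 := hx k
  rw [SModEq.zero, ← hk, Submodule.ideal_span_singleton_smul] at h1
  obtain ⟨y, -, hy⟩ := (Submodule.mem_smul_pointwise_iff_exists _ _ _).mp h1
  have h2 : x.1 = π ^ n • y.1 := by rw [← hy]; rfl
  rw [h2]
  exact pow_smul_apply_self y.2 n

/-- Evaluation of a sequence at the index `n`. -/
def tateEval (π : O) (M : Type*) [AddCommGroup M] [Module O M] (n : ℕ) : tate π M →ₗ[O] M :=
  (LinearMap.proj n).comp (tate π M).subtype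

@[simp] theorem tateEval_apply (n : ℕ) (x : tate π M) : tateEval π M n x = x.1 n := rfl

theorem range_tateEval_le (n : ℕ) :
    LinearMap.range (tateEval π M n) ≤ Submodule.torsionBy O M (π ^ n) := by
  rintro _ ⟨x, rfl⟩
  rw [Submodule.mem_torsionBy_iff]
  exact tate_pow_smul_self x.2 n

/-- If the `π`-torsion of `M` is finitely generated, the Tate module is a finite module. -/
theorem tate_finite [IsAdicComplete (maximalIdeal O) O] (hπ : π ∈ maximalIdeal O) (hπ0 : π ≠ 0)
    (hfg : (Submodule.torsionBy O M π).FG) : Module.Finite O (tate π M) := by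
  haveI := tate_isHausdorff (M := M) hπ0
  have hle : LinearMap.range (tateEval π M 1) ≤ Submodule.torsionBy O M π := by
    have := range_tateEval_le (π := π) (M := M) 1
    rwa [pow_one] at this
  have hfg' : (LinearMap.range (tateEval π M 1)).FG := hfg.of_le hle
  obtain ⟨r, s, hs⟩ := Submodule.fg_iff_exists_fin_generating_family.mp hfg'
  have hs' : ∀ i, s i ∈ LinearMap.range (tateEval π M 1) := fun i => by
    rw [← hs]; exact Submodule.subset_span (Set.mem_range_self i)
  choose t ht using hs'
  let f : (Fin r → O) →ₗ[O] tate π M := Fintype.linearCombination O t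
  haveI : IsAdicComplete (maximalIdeal O) (Fin r → O) :=
    IsAdicComplete.of_module_finite (maximalIdeal O) (Fin r → O)
  have hf : Function.Surjective f := by
    apply surjective_of_mkQ_comp_surjective (I := maximalIdeal O)
    intro y
    obtain ⟨y, rfl⟩ := Submodule.mkQ_surjective _ y
    have hy : tateEval π M 1 y ∈ Submodule.span O (Set.range s) := by
      rw [hs]; exact LinearMap.mem_range_self _ y
    obtain ⟨a, ha⟩ := Submodule.mem_span_range_iff_exists_fun O |>.mp hy
    refine ⟨a, ?_⟩
    have h1 : tateEval π M 1 (f a) = tateEval π M 1 y := by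
      rw [← ha]
      simp only [f, Fintype.linearCombination_apply, map_sum, map_smul, ht]
    have h2 : (y - f a).1 1 = 0 := by
      have := congrArg (fun z => tateEval π M 1 y - z) h1
      simp only [sub_self] at this
      rw [← map_sub] at this
      exact this
    obtain ⟨z, hz, hz'⟩ := exists_eq_pow_smul (y - f a).2 h2
    rw [pow_one] at hz'
    have h3 : y - f a = π • (⟨z, hz⟩ : tate π M) := Subtype.ext hz'
    have h4 : y - f a ∈ maximalIdeal O • (⊤ : Submodule O (tate π M)) := by
      rw [h3]
      exact Submodule.smul_mem_smul hπ Submodule.mem_top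
    simp only [LinearMap.coe_comp, Function.comp_apply, Submodule.mkQ_apply]
    symm
    rw [Submodule.Quotient.eq]
    exact h4
  exact Module.Finite.of_surjective f hf

theorem tate_fg [IsAdicComplete (maximalIdeal O) O] (hπ : π ∈ maximalIdeal O) (hπ0 : π ≠ 0)
    (hfg : (Submodule.torsionBy O M π).FG) : (tate π M).FG := by
  haveI := tate_finite hπ hπ0 hfg
  exact (Module.Finite.iff_fg).mp inferInstance

end DVR

/-! ### endomorphisms and the eigen-lattice -/

section Eigen

variable {O : Type*} [CommRing O] {π : O} {M : Type*} [AddCommGroup M] [Module O M]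

theorem comp_mem_tate (φ : Module.End O M) {x : ℕ → M} (hx : x ∈ tate π M) :
    (fun n => φ (x n)) ∈ tate π M := by
  refine ⟨?_, fun n => ?_⟩
  · show φ (x 0) = 0
    rw [tate_zero hx, map_zero]
  · show π • φ (x (n + 1)) = φ (x n)
    rw [← map_smul, tate_succ hx]

variable {ι : Type*} (π) (h : ι → Module.End O M) (c : ι → O)

/-- The simultaneous eigen-lattice in the Tate module: sequences `x` in `tate π M` with
`h i (x n) = c i • x n` for all `i` and `n`. -/
def eigenTate : Submodule O (ℕ → M) where
  carrier := {x | x ∈ tate π M ∧ ∀ i n, h i (x n) = c i • x n}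
  add_mem' := by
    rintro x y ⟨hx, hx'⟩ ⟨hy, hy'⟩
    refine ⟨(tate π M).add_mem hx hy, fun i n => ?_⟩
    simp only [Pi.add_apply, map_add, hx' i n, hy' i n, smul_add]
  zero_mem' := ⟨(tate π M).zero_mem, fun i n => by simp⟩
  smul_mem' := by
    rintro a x ⟨hx, hx'⟩
    refine ⟨(tate π M).smul_mem a hx, fun i n => ?_⟩
    simp only [Pi.smul_apply, map_smul, hx' i n]
    rw [smul_comm]

variable {π h c}

theorem mem_eigenTate {x : ℕ → M} :
    x ∈ eigenTate π h c ↔ x ∈ tate π M ∧ ∀ i n, h i (x n) = c i • x n := Iff.rfl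

theorem eigenTate_le : eigenTate π h c ≤ tate π M := fun _ hx => hx.1

theorem eigenTate_pow_smul_self (x : eigenTate π h c) (n : ℕ) : π ^ n • x.1 n = 0 :=
  tate_pow_smul_self x.2.1 n

end Eigen

section EigenDVR

variable {O : Type*} [CommRing O] [IsDomain O] [IsDiscreteValuationRing O]
  {π : O} {M : Type*} [AddCommGroup M] [Module O M]
  {ι : Type*} {h : ι → Module.End O M} {c : ι → O}

/-- The eigen-lattice is saturated in the Tate module. -/
theorem eigenTate_saturated (hπ : π ∈ maximalIdeal O) {a : O} (ha : a ≠ 0) {x : ℕ → M}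
    (hx : x ∈ tate π M) (hax : a • x ∈ eigenTate π h c) : x ∈ eigenTate π h c := by
  refine ⟨hx, fun i n => ?_⟩
  have hz : (fun n => h i (x n)) - c i • x ∈ tate π M :=
    (tate π M).sub_mem (comp_mem_tate (h i) hx) ((tate π M).smul_mem _ hx)
  have hz0 : a • ((fun n => h i (x n)) - c i • x) = 0 := by
    funext n
    have := hax.2 i n
    simp only [Pi.smul_apply, map_smul] at this
    simp only [Pi.smul_apply, Pi.sub_apply, Pi.zero_apply, smul_sub, this]
    rw [smul_comm, sub_self]
  have := tate_smul_eq_zero hπ ha hz hz0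
  have := congrFun this n
  simp only [Pi.sub_apply, Pi.smul_apply, Pi.zero_apply] at this
  exact sub_eq_zero.mp this

theorem eigenTate_isTorsionFree (hπ : π ∈ maximalIdeal O) :
    Module.IsTorsionFree O (eigenTate π h c) := by
  refine Module.IsTorsionFree.of_smul_eq_zero fun a x hax => ?_
  by_cases ha : a = 0
  · exact Or.inl ha
  · right
    apply Subtype.ext
    apply tate_smul_eq_zero hπ ha x.2.1
    have := congrArg Subtype.val hax
    simpa using this

theorem eigenTate_finite [IsAdicComplete (maximalIdeal O) O] (hπ : π ∈ maximalIdeal O)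
    (hπ0 : π ≠ 0) (hfg : (Submodule.torsionBy O M π).FG) :
    Module.Finite O (eigenTate π h c) :=
  Module.Finite.iff_fg.mpr ((tate_fg hπ hπ0 hfg).of_le eigenTate_le)

theorem eigenTate_free [IsAdicComplete (maximalIdeal O) O] (hπ : π ∈ maximalIdeal O)
    (hπ0 : π ≠ 0) (hfg : (Submodule.torsionBy O M π).FG) :
    Module.Free O (eigenTate π h c) := by
  haveI := eigenTate_finite (h := h) (c := c) hπ hπ0 hfg
  haveI := eigenTate_isTorsionFree (h := h) (c := c) hπ
  exact Module.free_of_finite_type_torsion_free'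

end EigenDVR

/-! ### the action of a group on the eigen-lattice -/

section Action

variable {O : Type*} [CommRing O] {π : O} {M : Type*} [AddCommGroup M] [Module O M]
  {ι : Type*} {h : ι → Module.End O M} {c : ι → O}

/-- An endomorphism of `M` commuting with all `h i` acts on the eigen-lattice. -/
def eigenTateMap (φ : Module.End O M) (hφ : ∀ i m, h i (φ m) = φ (h i m)) :
    Module.End O (eigenTate π h c) :=
  (φ.compLeft ℕ).restrict (p := eigenTate π h c) (q := eigenTate π h c) (by
    rintro x ⟨hx, hx'⟩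
    refine ⟨comp_mem_tate φ hx, fun i n => ?_⟩
    show h i (φ (x n)) = c i • φ (x n)
    rw [hφ, hx' i n, map_smul])

@[simp] theorem eigenTateMap_apply (φ : Module.End O M) (hφ : ∀ i m, h i (φ m) = φ (h i m))
    (x : eigenTate π h c) (n : ℕ) :
    (eigenTateMap φ hφ x).1 n = φ (x.1 n) := rfl

variable {G : Type*} [Group G] (g : G →* Module.End O M)
  (hcomm : ∀ σ i m, h i (g σ m) = g σ (h i m))

/-- The action of `G` on the eigen-lattice. -/
def eigenTateRep : G →* Module.End O (eigenTate π h c) where
  toFun σ := eigenTateMap (g σ) (hcomm σ)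
  map_one' := by
    apply LinearMap.ext
    intro x
    apply Subtype.ext
    funext n
    simp
  map_mul' σ τ := by
    apply LinearMap.ext
    intro x
    apply Subtype.ext
    funext n
    simp

@[simp] theorem eigenTateRep_apply (σ : G) (x : eigenTate π h c) (n : ℕ) :
    (eigenTateRep (π := π) (c := c) g hcomm σ x).1 n = g σ (x.1 n) := rfl

/-- If `g σ` fixes the `π ^ n`-torsion of `M` for all `n`, then `σ` acts trivially on the
eigen-lattice. -/
theorem eigenTateRep_eq_one {σ : G} (hσ : ∀ n (m : M), π ^ n • m = 0 → g σ m = m) :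
    eigenTateRep (π := π) (c := c) g hcomm σ = 1 := by
  apply LinearMap.ext
  intro x
  apply Subtype.ext
  funext n
  rw [eigenTateRep_apply, Module.End.one_apply]
  exact hσ n _ (eigenTate_pow_smul_self x n)

/-- The quadratic relation on the eigen-lattice. -/
theorem eigenTateRep_quadratic {σ : G} (i : ι) (b : O)
    (hσ : ∀ n (m : M), π ^ n • m = 0 → g σ (g σ m) - h i (g σ m) + b • m = 0) :
    eigenTateRep (π := π) (c := c) g hcomm σ * eigenTateRep (π := π) (c := c) g hcomm σ
      - c i • eigenTateRep (π := π) (c := c) g hcomm σ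
      + b • (1 : Module.End O (eigenTate π h c)) = 0 := by
  apply LinearMap.ext
  intro x
  apply Subtype.ext
  funext n
  have h1 := hσ n _ (eigenTate_pow_smul_self x n)
  have h2 : h i (g σ (x.1 n)) = c i • g σ (x.1 n) := by
    rw [hcomm, x.2.2 i n, map_smul]
  rw [h2] at h1
  simpa using h1

end Action

section ActionDVR

variable {O : Type*} [CommRing O] [IsDomain O] [IsDiscreteValuationRing O]
  {π : O} {M : Type*} [AddCommGroup M] [Module O M]
  {ι : Type*} {h : ι → Module.End O M} {c : ι → O}
  {G : Type*} [Group G] (g : G →* Module.End O M)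
  (hcomm : ∀ σ i m, h i (g σ m) = g σ (h i m))

/-- If `g σ` fixes the `π ^ n`-torsion of `M`, then `σ - 1` maps the eigen-lattice into
`𝔪 ^ n` times the eigen-lattice. -/
theorem eigenTateRep_sub_mem (hπ : π ∈ maximalIdeal O) (hπ0 : π ≠ 0) {σ : G} {n : ℕ}
    (hσ : ∀ m : M, π ^ n • m = 0 → g σ m = m) (x : eigenTate π h c) :
    eigenTateRep (π := π) (c := c) g hcomm σ x - x ∈
      (maximalIdeal O ^ n) • (⊤ : Submodule O (eigenTate π h c)) := by
  set w := eigenTateRep (π := π) (c := c) g hcomm σ x - x with hw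
  have hwn : w.1 n = 0 := by
    show g σ (x.1 n) - x.1 n = 0
    rw [hσ _ (eigenTate_pow_smul_self x n), sub_self]
  obtain ⟨y, hy, hy'⟩ := exists_eq_pow_smul w.2.1 hwn
  have hy2 : y ∈ eigenTate π h c :=
    eigenTate_saturated hπ (pow_ne_zero n hπ0) hy (hy' ▸ w.2)
  have h3 : w = π ^ n • (⟨y, hy2⟩ : eigenTate π h c) := Subtype.ext hy'
  rw [h3]
  exact Submodule.smul_mem_smul (Ideal.pow_mem_pow hπ n) Submodule.mem_top

end ActionDVR

end Fermat.Agent.S30Tate
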