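import Fermat.Agent.S30.WilesIdentities
import Fermat.Agent.S30.WilesSat

set_option autoImplicit false

/-!
# S30 p-adic core, part 3: the conclusion `RepConclusion`, and the case of a stable line

If a primitive vector `u` spans a `G`-stable line, `G` acts on it through a character `ψ` and
`ψ ⊕ ε ψ⁻¹` on `R × R` has characteristic polynomials `X² - t(g) X + ε(g)`.
-/

namespace Fermat.Agent.S30

open Module Polynomial IsLocalRing

section Concl

variable {R : Type} [CommRing R] [IsLocalRing R] {G : Type*} [Group G]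
  {Λ : Type} [AddCommGroup Λ] [Module R Λ]

/-- The output of the Wiles algebra: a free module of rank two with an action of `G` whose
characteristic polynomials are `X² - t(g) X + ε(g)`, and which is as continuous / as unramified
as `ρ` and `ε` are. -/
def RepConclusion (ρ : G →* Module.End R Λ) (ε : G →* Rˣ) (t : G → R) : Prop :=
  ∃ (V : Type) (_ : AddCommGroup V) (_ : Module R V) (_ : Module.Free R V)
    (_ : Module.Finite R V) (ρ' : G →* Module.End R V),
    Module.finrank R V = 2 ∧
    (∀ g : G, LinearMap.charpoly (ρ' g) = X ^ 2 - C (t g) * X + C ((ε g : Rˣ) : R)) ∧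
    (∀ (n : ℕ) (g : G),
      (∀ x : Λ, ρ g x - x ∈ (maximalIdeal R ^ n) • (⊤ : Submodule R Λ)) →
      (((ε g : Rˣ) : R) - 1 ∈ maximalIdeal R ^ n) →
      ∀ y : V, ρ' g y - y ∈ (maximalIdeal R ^ n) • (⊤ : Submodule R V)) ∧
    (∀ g : G, ρ g = 1 → ε g = 1 → ρ' g = 1)

end Concl

section Diag

variable {R : Type*} [CommRing R]

/-- The characteristic polynomial of a scalar endomorphism of `R`. -/
theorem charpoly_smul_one_self (a : R) :
    LinearMap.charpoly (a • (1 : Module.End R R)) = X - C a := by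
  classical
  rw [← LinearMap.charpoly_toMatrix _ (Module.Basis.singleton (Fin 1) R)]
  have : LinearMap.toMatrix (Module.Basis.singleton (Fin 1) R) (Module.Basis.singleton (Fin 1) R)
      (a • (1 : Module.End R R)) = Matrix.diagonal fun _ => a := by
    rw [map_smul, LinearMap.toMatrix_one]
    ext i j
    by_cases hij : i = j
    · subst hij; simp
    · simp [hij]
  rw [this, Matrix.charpoly_diagonal, Finset.prod_const, Finset.card_univ, Fintype.card_fin,
    pow_one]

variable {G : Type*} [Group G]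

/-- The representation `χ₁ ⊕ χ₂` on `R × R`. -/
def diagRepR (χ₁ χ₂ : G →* R) : G →* Module.End R (R × R) where
  toFun g := LinearMap.prodMap (χ₁ g • (1 : Module.End R R)) (χ₂ g • (1 : Module.End R R))
  map_one' := by
    ext <;> simp
  map_mul' g h := by
    have e1 : χ₁ (g * h) • (1 : Module.End R R) =
        (χ₁ g • (1 : Module.End R R)) * (χ₁ h • (1 : Module.End R R)) := by
      rw [smul_mul_smul_comm, one_mul, map_mul]
    have e2 : χ₂ (g * h) • (1 : Module.End R R) =
        (χ₂ g • (1 : Module.End R R)) * (χ₂ h • (1 : Module.End R R)) := by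
      rw [smul_mul_smul_comm, one_mul, map_mul]
    rw [e1, e2]
    exact (LinearMap.prodMap_mul _ _ _ _).symm

theorem diagRepR_def (χ₁ χ₂ : G →* R) (g : G) :
    diagRepR χ₁ χ₂ g =
      LinearMap.prodMap (χ₁ g • (1 : Module.End R R)) (χ₂ g • (1 : Module.End R R)) := rfl

theorem diagRepR_apply (χ₁ χ₂ : G →* R) (g : G) (y : R × R) :
    diagRepR χ₁ χ₂ g y = (χ₁ g * y.1, χ₂ g * y.2) := by
  rw [diagRepR_def]
  simp

theorem charpoly_diagRepR (χ₁ χ₂ : G →* R) (g : G) :
    LinearMap.charpoly (diagRepR χ₁ χ₂ g) = (X - C (χ₁ g)) * (X - C (χ₂ g)) := by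
  rw [diagRepR_def, LinearMap.charpoly_prodMap, charpoly_smul_one_self, charpoly_smul_one_self]

theorem diagRepR_eq_one (χ₁ χ₂ : G →* R) (g : G) (h1 : χ₁ g = 1) (h2 : χ₂ g = 1) :
    diagRepR χ₁ χ₂ g = 1 := by
  rw [diagRepR_def, h1, h2]
  ext <;> simp

end Diag

section Line

variable {R : Type} [CommRing R] [IsDomain R] [IsDiscreteValuationRing R]
  {G : Type*} [Group G]
  {Λ : Type} [AddCommGroup Λ] [Module R Λ] [Module.IsTorsionFree R Λ]

/-- **Line case.** -/
theorem repConclusion_of_line (ρ : G →* Module.End R Λ) (ε : G →* Rˣ) (t : G → R)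
    (hQ : QuadRel ρ ε t) (u : Λ) (hu : IsPrimVec R u) (hu0 : u ≠ 0)
    (hstab : ∀ g : G, ρ g u ∈ Submodule.span R {u}) :
    RepConclusion ρ ε t := by
  classical
  have hinj : Function.Injective fun a : R => a • u := smul_left_injective R hu0
  have hex : ∀ g : G, ∃ a : R, a • u = ρ g u := fun g =>
    Submodule.mem_span_singleton.mp (hstab g)
  choose ψ hψ using hex
  have hψmul : ∀ g h : G, ψ (g * h) = ψ g * ψ h := by
    intro g h
    apply hinj
    show ψ (g * h) • u = (ψ g * ψ h) • u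
    rw [hψ, map_mul, Module.End.mul_apply, ← hψ h, map_smul, ← hψ g, smul_smul, mul_comm]
  have hψone : ψ 1 = 1 := by
    apply hinj
    show ψ 1 • u = (1 : R) • u
    rw [hψ, map_one, Module.End.one_apply, one_smul]
  have hψinv : ∀ g : G, ψ g * ψ g⁻¹ = 1 := by
    intro g
    rw [← hψmul, mul_inv_cancel, hψone]
  have hψquad : ∀ g : G, ψ g * ψ g - t g * ψ g + ((ε g : Rˣ) : R) = 0 := by
    intro g
    apply hinj
    show (ψ g * ψ g - t g * ψ g + ((ε g : Rˣ) : R)) • u = (0 : R) • u
    have h := hQ.apply g u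
    rw [← hψ g, map_smul, ← hψ g] at h
    rw [zero_smul, ← h]
    module
  have hψtr : ∀ g : G, ψ g + ((ε g : Rˣ) : R) * ψ g⁻¹ = t g := by
    intro g
    have h := hψquad g
    have h1 : (ψ g * ψ g - t g * ψ g + ((ε g : Rˣ) : R)) * ψ g⁻¹ = 0 := by
      rw [h, zero_mul]
    have h2 := hψinv g
    linear_combination h1 - (ψ g - t g) * h2
  let χ₁ : G →* R := { toFun := ψ, map_one' := hψone, map_mul' := hψmul }
  let χ₂ : G →* R :=
    { toFun := fun g => ((ε g : Rˣ) : R) * ψ g⁻¹
      map_one' := by simp [hψone]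
      map_mul' := fun g h => by
        rw [mul_inv_rev, hψmul, map_mul, Units.val_mul]; ring }
  have hχ₁ : ∀ g, χ₁ g = ψ g := fun _ => rfl
  have hχ₂ : ∀ g, χ₂ g = ((ε g : Rˣ) : R) * ψ g⁻¹ := fun _ => rfl
  obtain ⟨ϖ, hϖ⟩ := IsDiscreteValuationRing.exists_irreducible R
  refine ⟨R × R, inferInstance, inferInstance, inferInstance, inferInstance, diagRepR χ₁ χ₂,
    ?_, ?_, ?_, ?_⟩
  · rw [Module.finrank_prod, Module.finrank_self]
  · intro g
    rw [charpoly_diagRepR, hχ₁, hχ₂]
    have h2 := hψinv g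
    have e3 : ψ g * (((ε g : Rˣ) : R) * ψ g⁻¹) = ((ε g : Rˣ) : R) := by
      linear_combination ((ε g : Rˣ) : R) * h2
    calc (X - C (ψ g)) * (X - C (((ε g : Rˣ) : R) * ψ g⁻¹))
        = X ^ 2 - C (ψ g + ((ε g : Rˣ) : R) * ψ g⁻¹) * X
            + C (ψ g * (((ε g : Rˣ) : R) * ψ g⁻¹)) := by
          simp only [map_add, map_mul]; ring
      _ = X ^ 2 - C (t g) * X + C ((ε g : Rˣ) : R) := by rw [hψtr, e3]
  · intro n g hg hεg y
    -- `ψ g - 1 ∈ 𝔪 ^ n`
    have h1 : ψ g - 1 ∈ maximalIdeal R ^ n := by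
      have hx := hg u
      rw [← hψ g] at hx
      obtain ⟨z, hz⟩ := (mem_maximalIdeal_pow_smul_top hϖ n _).mp hx
      rw [hϖ.maximalIdeal_eq, Ideal.span_singleton_pow, Ideal.mem_span_singleton]
      have hz' : (ψ g - 1) • u = ϖ ^ n • z := by
        rw [sub_smul, one_smul]; exact hz
      rcases ValuationRing.dvd_total (ϖ ^ n) (ψ g - 1) with h | ⟨b, hb⟩
      · exact h
      · by_cases h0 : ψ g - 1 = 0
        · rw [h0]; exact dvd_zero _
        · have h3 : (ψ g - 1) • (u - b • z) = 0 := by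
            rw [smul_sub, hz', hb, mul_smul]
            exact sub_self _
          rcases smul_eq_zero.mp h3 with h | h
          · exact absurd h h0
          · rw [sub_eq_zero] at h
            obtain ⟨b', rfl⟩ := hu b z h.symm
            refine ⟨((b'⁻¹ : Rˣ) : R), ?_⟩
            rw [hb, mul_assoc, Units.mul_inv, mul_one]
    have h2 : ((ε g : Rˣ) : R) * ψ g⁻¹ - 1 ∈ maximalIdeal R ^ n := by
      have e : ((ε g : Rˣ) : R) * ψ g⁻¹ - 1 =
          ψ g⁻¹ * ((((ε g : Rˣ) : R) - 1) - (ψ g - 1)) := by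
        linear_combination hψinv g
      rw [e]
      exact Ideal.mul_mem_left _ _ (Ideal.sub_mem _ hεg h1)
    have e : diagRepR χ₁ χ₂ g y - y =
        (ψ g - 1) • ((y.1, 0) : R × R) + (((ε g : Rˣ) : R) * ψ g⁻¹ - 1) • ((0, y.2) : R × R) := by
      rw [diagRepR_apply, hχ₁, hχ₂]
      ext
      · simp; ring
      · simp; ring
    rw [e]
    exact Submodule.add_mem _ (Submodule.smul_mem_smul h1 Submodule.mem_top)
      (Submodule.smul_mem_smul h2 Submodule.mem_top)
  · intro g hg hεg
    have h1 : ψ g = 1 := by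
      apply hinj
      show ψ g • u = (1 : R) • u
      rw [hψ, hg, Module.End.one_apply, one_smul]
    have h2 : ψ g⁻¹ = 1 := by
      have := hψinv g
      rwa [h1, one_mul] at this
    apply diagRepR_eq_one
    · rw [hχ₁, h1]
    · rw [hχ₂, h2, hεg, Units.val_one, one_mul]

end Line

end Fermat.Agent.S30
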