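import Fermat.Agent.S30.WilesLine

set_option autoImplicit false

/-!
# S30 p-adic core, part 4: the case of a stable plane

`M ⊂ Λ` saturated and `G`-stable, containing eigenvectors `u`, `w` of the involution `ρ(c)` for
the eigenvalues `s`, `-s`, and such that the `±s`-eigenspaces of `ρ(c)` in `M` are the lines
through `u`, `w`.  Then `M` is free of rank two and the characteristic polynomial of `ρ(g)` on
`M` is `X² - t(g) X + ε(g)`.
-/

namespace Fermat.Agent.S30

open Module Polynomial IsLocalRing

section Restrict

variable {R : Type*} [CommRing R] {G : Type*} [Group G]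
  {Λ : Type*} [AddCommGroup Λ] [Module R Λ]

/-- Restriction of a representation to a stable submodule. -/
def restrictRepR (ρ : G →* Module.End R Λ) (M : Submodule R Λ)
    (hM : ∀ (g : G) (x : Λ), x ∈ M → ρ g x ∈ M) : G →* Module.End R M where
  toFun g := (ρ g).restrict (hM g)
  map_one' := by
    ext x
    simp
  map_mul' g h := by
    ext x
    simp

@[simp]
theorem restrictRepR_apply_coe (ρ : G →* Module.End R Λ) (M : Submodule R Λ)
    (hM : ∀ (g : G) (x : Λ), x ∈ M → ρ g x ∈ M) (g : G) (x : M) :
    ((restrictRepR ρ M hM g x : M) : Λ) = ρ g (x : Λ) := rfl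

theorem quadRel_restrict {ρ : G →* Module.End R Λ} {ε : G →* Rˣ} {t : G → R}
    (hQ : QuadRel ρ ε t) (M : Submodule R Λ)
    (hM : ∀ (g : G) (x : Λ), x ∈ M → ρ g x ∈ M) : QuadRel (restrictRepR ρ M hM) ε t := by
  intro g
  ext x
  have := hQ.apply g (x : Λ)
  simpa using this

end Restrict

section Plane

variable {R : Type} [CommRing R] [IsDomain R] [IsDiscreteValuationRing R] [CharZero R]
  {G : Type*} [Group G]
  {Λ : Type} [AddCommGroup Λ] [Module R Λ] [Module.Free R Λ] [Module.Finite R Λ]

omit [CharZero R] [Module.Free R Λ] [Module.Finite R Λ] in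
/-- The characteristic polynomial of an endomorphism of a free module of rank two which is
killed by `X² - a X + b`, given two "half-trace" relations. -/
theorem charpoly_eq_of_quad {M : Type} [AddCommGroup M] [Module R M] [Module.Free R M]
    [Module.Finite R M] [Nontrivial M] (hfin : Module.finrank R M = 2) (T : Module.End R M)
    (a b : R) (hT : T * T - a • T + b • (1 : Module.End R M) = 0)
    (hscal : ∀ r σ : R, r • T = σ • (1 : Module.End R M) → r * a = 2 * σ)
    (h2 : (2 : R) ≠ 0) :
    LinearMap.charpoly T = X ^ 2 - C a * X + C b := by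
  classical
  let bas : Basis (Fin 2) R M := Module.finBasisOfFinrankEq R M hfin
  set A := LinearMap.toMatrix bas bas T with hA
  have hch : LinearMap.charpoly T = X ^ 2 - C A.trace * X + C A.det := by
    rw [← LinearMap.charpoly_toMatrix T bas, Matrix.charpoly_fin_two]
  have hCH := LinearMap.aeval_self_charpoly T
  rw [hch] at hCH
  simp only [map_add, map_sub, map_mul, map_pow, aeval_X, aeval_C,
    Algebra.algebraMap_eq_smul_one] at hCH
  -- hCH : T ^ 2 - (A.trace • 1) * T + A.det • 1 = 0
  have hCH' : T * T - A.trace • T + A.det • (1 : Module.End R M) = 0 := by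
    rw [← hCH, pow_two, smul_mul_assoc, one_mul]
  have hdiff : (A.trace - a) • T = (A.det - b) • (1 : Module.End R M) := by
    have : (A.trace - a) • T - (A.det - b) • (1 : Module.End R M) =
        (T * T - a • T + b • (1 : Module.End R M))
          - (T * T - A.trace • T + A.det • (1 : Module.End R M)) := by
      rw [sub_smul, sub_smul]; abel
    rw [hT, hCH', sub_zero] at this
    exact sub_eq_zero.mp this
  have htr : (A.trace - a) * A.trace = 2 * (A.det - b) := by
    have h := congrArg (LinearMap.trace R M) hdiff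
    rw [map_smul, map_smul, LinearMap.trace_one, hfin, LinearMap.trace_eq_matrix_trace R bas T,
      smul_eq_mul, smul_eq_mul] at h
    rw [h]; push_cast; ring
  have hsc := hscal _ _ hdiff
  -- (tr - a) * a = 2 (det - b) = (tr - a) * tr
  have hr : (A.trace - a) * (A.trace - a) = 0 := by
    linear_combination htr - hsc
  have hr0 : A.trace - a = 0 := by
    rcases mul_eq_zero.mp hr with h | h <;> exact h
  have hσ : A.det - b = 0 := by
    have : (2 : R) * (A.det - b) = 0 := by rw [← hsc, hr0, zero_mul]
    rcases mul_eq_zero.mp this with h | h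
    · exact absurd h h2
    · exact h
  rw [hch, sub_eq_zero.mp hr0, sub_eq_zero.mp hσ]

/-- **Plane case.** -/
theorem repConclusion_of_plane (ρ : G →* Module.End R Λ) (ε : G →* Rˣ) (t : G → R)
    (hQ : QuadRel ρ ε t) (c : G) (hc : c * c = 1) (htc : t c = 0)
    (s : R) (hs : s * s = 1)
    (M : Submodule R Λ) (hMsat : IsSatSub M) (hMstab : ∀ (g : G) (x : Λ), x ∈ M → ρ g x ∈ M)
    (u w : Λ) (huM : u ∈ M) (hwM : w ∈ M) (hu0 : u ≠ 0) (hw0 : w ≠ 0)
    (hcu : ρ c u = s • u) (hcw : ρ c w = (-s) • w)
    (hplus : ∀ x ∈ M, ρ c x = s • x → x ∈ Submodule.span R {u})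
    (hminus : ∀ x ∈ M, ρ c x = (-s) • x → x ∈ Submodule.span R {w}) :
    RepConclusion ρ ε t := by
  classical
  have h2R : (2 : R) ≠ 0 := two_ne_zero
  have h2 : ∀ y : Λ, (2 : R) • y = 0 → y = 0 := fun y hy =>
    (smul_eq_zero.mp hy).resolve_left h2R
  have hs' : (-s) * (-s) = 1 := by rw [neg_mul_neg, hs]
  -- finrank M = 2
  have hli : LinearIndependent R ![(⟨u, huM⟩ : M), ⟨w, hwM⟩] := by
    rw [LinearIndependent.pair_iff]
    intro a b hab
    have hab' : a • u + b • w = 0 := by
      have := congrArg (Subtype.val) hab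
      simpa using this
    have h1 : a • u - b • w = 0 := by
      have := congrArg (fun y => s • ρ c y) hab'
      simp only [map_add, map_smul, hcu, hcw, smul_zero, map_zero] at this
      rw [← this]
      simp only [smul_add, smul_smul]
      have e1 : s * (a * s) = a := by linear_combination a * hs
      have e2 : s * (b * -s) = -b := by linear_combination -b * hs
      rw [e1, e2, neg_smul, sub_eq_add_neg]
    have ha : (2 : R) • (a • u) = 0 := by
      have : (2 : R) • (a • u) = (a • u + b • w) + (a • u - b • w) := by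
        rw [two_smul]; abel
      rw [this, hab', h1, add_zero]
    have ha0 : a = 0 := (smul_eq_zero.mp (h2 _ ha)).resolve_right hu0
    refine ⟨ha0, ?_⟩
    rw [ha0, zero_smul, zero_add] at hab'
    exact (smul_eq_zero.mp hab').resolve_right hw0
  have hge : 2 ≤ Module.finrank R M := by
    have := hli.fintype_card_le_finrank
    simpa using this
  have hmem2 : ∀ x ∈ M, (2 : R) • x ∈ Submodule.span R ((({u, w} : Finset Λ)) : Set Λ) := by
    intro x hx
    have hcx : ρ c x ∈ M := hMstab c x hx
    have hp : x + s • ρ c x ∈ Submodule.span R {u} := by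
      apply hplus _ (M.add_mem hx (M.smul_mem s hcx))
      rw [map_add, map_smul, rho_invol_apply ρ hc, smul_add, smul_smul, hs, one_smul, add_comm]
    have hm : x + (-s) • ρ c x ∈ Submodule.span R {w} := by
      apply hminus _ (M.add_mem hx (M.smul_mem (-s) hcx))
      rw [map_add, map_smul, rho_invol_apply ρ hc, smul_add, smul_smul, hs', one_smul, add_comm]
    have e : (2 : R) • x = (x + s • ρ c x) + (x + (-s) • ρ c x) := by
      rw [two_smul, neg_smul]; abel
    rw [e]
    refine Submodule.add_mem _ ?_ ?_
    · exact Submodule.span_mono (by simp) hp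
    · exact Submodule.span_mono (by simp) hm
  have hle : Module.finrank R M ≤ 2 := by
    let P : Submodule R Λ := Submodule.span R ((({u, w} : Finset Λ)) : Set Λ)
    let f : M →ₗ[R] P := LinearMap.codRestrict P ((2 : R) • M.subtype) (fun x => hmem2 x x.2)
    have hf : Function.Injective f := by
      intro x y hxy
      have h : (2 : R) • (x : Λ) = (2 : R) • (y : Λ) := congrArg (fun z : P => (z : Λ)) hxy
      have : (2 : R) • ((x : Λ) - y) = 0 := by rw [smul_sub, h, sub_self]
      exact Subtype.ext (sub_eq_zero.mp (h2 _ this))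
    calc Module.finrank R M ≤ Module.finrank R P := LinearMap.finrank_le_finrank_of_injective hf
      _ ≤ ({u, w} : Finset Λ).card := finrank_span_finset_le_card _
      _ ≤ 2 := Finset.card_le_two
  have hfin : Module.finrank R M = 2 := le_antisymm hle hge
  have : Nontrivial M := ⟨⟨⟨u, huM⟩, 0, fun h => hu0 (congrArg Subtype.val h)⟩⟩
  obtain ⟨ϖ, hϖ⟩ := IsDiscreteValuationRing.exists_irreducible R
  refine ⟨M, inferInstance, inferInstance, inferInstance, inferInstance, restrictRepR ρ M hMstab,
    hfin, ?_, ?_, ?_⟩
  · intro g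
    apply charpoly_eq_of_quad hfin _ _ _ (quadRel_restrict hQ M hMstab g) _ h2R
    intro r σ hrσ
    -- apply to `u` and `w`
    have hu1 : r • ρ g u = σ • u := by
      have := congrArg (fun F : Module.End R M => ((F ⟨u, huM⟩ : M) : Λ)) hrσ
      simpa using this
    have hw1 : r • ρ g w = σ • w := by
      have := congrArg (fun F : Module.End R M => ((F ⟨w, hwM⟩ : M) : Λ)) hrσ
      simpa using this
    have eu := hQ.sign_eigen hc htc h2 s hs g u hcu
    have ew := hQ.sign_eigen hc htc h2 (-s) hs' g w hcw
    have eu1 : r • (ρ g u + s • ρ c (ρ g u)) = σ • u + s • ρ c (σ • u) := by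
      rw [smul_add, smul_comm r s, ← map_smul (ρ c), hu1]
    have eu' : (r * (t g + s * t (c * g))) • u = (2 * σ) • u := by
      rw [mul_smul, ← eu, eu1, map_smul, hcu, smul_smul, smul_smul, ← add_smul]
      congr 1
      linear_combination σ * hs
    have ew1 : r • (ρ g w + (-s) • ρ c (ρ g w)) = σ • w + (-s) • ρ c (σ • w) := by
      rw [smul_add, smul_comm r (-s), ← map_smul (ρ c), hw1]
    have ew' : (r * (t g + -s * t (c * g))) • w = (2 * σ) • w := by
      rw [mul_smul, ← ew, ew1, map_smul, hcw, smul_smul, smul_smul, ← add_smul]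
      congr 1
      linear_combination σ * hs
    have eu'' := smul_left_injective R hu0 eu'
    have ew'' := smul_left_injective R hw0 ew'

    have h4 : (2 : R) * (r * t g) = 2 * (2 * σ) := by linear_combination eu'' + ew''
    exact mul_left_cancel₀ h2R h4
  · intro n g hg hεg y
    obtain ⟨z, hz⟩ := (mem_maximalIdeal_pow_smul_top hϖ n _).mp (hg (y : Λ))
    have hzM : z ∈ M := by
      apply hMsat (ϖ ^ n) z (pow_ne_zero _ hϖ.ne_zero)
      rw [← hz]
      exact M.sub_mem (hMstab g _ y.2) y.2
    rw [mem_maximalIdeal_pow_smul_top hϖ]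
    refine ⟨⟨z, hzM⟩, ?_⟩
    apply Subtype.ext
    simpa using hz
  · intro g hg _
    ext x
    simp [hg]

end Plane

end Fermat.Agent.S30
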